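/-
Program MAZ (S15 = Mazur's step three), chapter Spec, helper62: THE POINT SIDE (X-SIDE).

Vocabulary and contracts for everything that turns `(W, Q)` (an integral Weierstrass curve with a
rational point of prime order `p`) into a Galois-fixed class of `JZero p` with the reduction
properties consumed by the endgame:

* `jpF p`, `cuspInf p`, `IsCuspZero p v`, `HasValue`, the TUBES `InTubeZero`, `InTubeInf`
  (valuation-theoretic neighbourhoods of the two cusps at a valuation subring `A` of `ℚbar`);
* `heckeSub p` : the subalgebra of `End (JZero p)` generated by the `T_m`, `m ≠ p`;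
* contracts (each a `def … : Prop`): `XMod` (moduli link), `XRed0` (reduction inputs at level `p`),
  `XRed` (tubes reduce to the cusps), `XHecke` (tubes are Hecke stable), `CuspPkg`, `GlobalEis`;
* `tubeClasses`, `reduction_eq_zero_of_mem_tubeClasses` : the only Hecke compatibility of reduction
  the endgame needs, PROVED here from `XRed` + `XHecke`.

The final assembly (S15 from the contracts) is in `Top62`.
-/
import Mathlib
import Fermat.Prelude.Def_ModularCurve_ReductionModL
import Fermat.Prelude.Def_ModularCurve_HeckeModule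
import Fermat.Prelude.Def_EllipticCurve_ZeroComponentAt
import Fermat.Prelude.Def_FLTPrelim_Ramification
import Fermat.Agent.X0.AnDefs
import Fermat.Agent.M1.Link.InfPlace39

set_option autoImplicit false
set_option linter.unusedSectionVars false
set_option linter.style.haveILetI false

open AlgebraicCurve ModularCurve
open WeierstrassCurve WeierstrassCurve.Affine

noncomputable section

namespace Fermat.Agent.MAZ.Spec.XSpec62

open Fermat.Agent.X0

/-- `ℚbar`. -/
abbrev Qb : Type := AlgebraicClosure ℚ

/-- The absolute Galois group of `ℚ`. -/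
abbrev GQ : Type := Qb ≃ₐ[ℚ] Qb

variable (p : ℕ) [NeZero p]

/-- `j_p = j(q^p)` as an element of the function field `FF p = ℚbar(j, j_p)`. -/
def jpF : FF p := jdF p p dvd_rfl

/-- The cusp `∞`: the `q`-adic place of `FF p ⊆ ℚbar((q))`. -/
def cuspInf : Place Qb (FF p) := Fermat.Agent.M1.Link.InfPlace39.infPlace p

/-- The cusp `0`, characterised by its orders: `ord j = -p`, `ord j_p = -1`. -/
def IsCuspZero (v : Place Qb (FF p)) : Prop :=
  v.ord (jF p) = -(p : ℤ) ∧ v.ord (jpF p) = -1

variable {p}

/-- The function `f` takes the value `a` at the place `x`. -/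
def HasValue (x : Place Qb (FF p)) (f : FF p) (a : Qb) : Prop :=
  0 < x.ord (f - algebraMap Qb (FF p) a)

/-- The tube of the cusp `0` at `A`: `x = 0`, or `|j(x)|_A > 1` and `|j_p(x)|_A ^ p = |j(x)|_A`. -/
def InTubeZero (A : ValuationSubring Qb) (cZ x : Place Qb (FF p)) : Prop :=
  x = cZ ∨ ∃ a b : Qb, HasValue x (jF p) a ∧ HasValue x (jpF p) b ∧ a ∉ A ∧
    A.valuation (b ^ p) = A.valuation a

/-- The tube of the cusp `∞` at `A`: `x = ∞`, or `|j(x)|_A > 1` and `|j_p(x)|_A = |j(x)|_A ^ p`. -/
def InTubeInf (A : ValuationSubring Qb) (x : Place Qb (FF p)) : Prop :=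
  x = cuspInf p ∨ ∃ a b : Qb, HasValue x (jF p) a ∧ HasValue x (jpF p) b ∧ a ∉ A ∧
    A.valuation b = A.valuation (a ^ p)

variable (p)

/-- The subalgebra of `End (JZero p)` generated by the Hecke operators `T_m`, `m ≠ p` prime. -/
def heckeSub : Subalgebra ℤ (Module.End ℤ (JZero p)) :=
  Algebra.adjoin ℤ ((heckeOperatorBar p) '' {m : Nat.Primes | (m : ℕ) ≠ p})

/-- A place is fixed by the arithmetic Galois action. -/
def PlaceFixed (x : Place Qb (FF p)) : Prop :=
  ∀ σ : GQ, arithmeticGalois (modularFunctionFieldFull p) σ • x = x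

/-! ### The contracts -/

/-- **(X-MOD)** the moduli link: a rational point of order `p` on an integral Weierstrass curve with
at least one prime `≠ p` of multiplicative reduction gives a Galois-fixed place of `FF p` which lies,
at every multiplicative prime `q ≠ p`, in the tube of `0` or of `∞` according to whether `Q` misses
or meets the identity component. -/
def XMod (cZ : Place Qb (FF p)) : Prop :=
  ∀ (W : WeierstrassCurve ℤ) (_ : W.Δ ≠ 0)
    (Q : ((W.map (Int.castRingHom ℚ))⁄Qb).Point),
    (∀ σ : GQ, σ • Q = Q) → addOrderOf Q = p →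
    (∃ q : ℕ, q.Prime ∧ q ≠ p ∧ (q : ℤ) ∣ W.Δ ∧ ¬ (q : ℤ) ∣ W.c₄) →
    ∃ x : Place Qb (FF p), PlaceFixed p x ∧
      ∀ q : ℕ, q.Prime → q ≠ p → (q : ℤ) ∣ W.Δ → ¬ (q : ℤ) ∣ W.c₄ →
        ∀ A : ValuationSubring Qb, A.LiesOverPrime q →
          (¬ W.InZeroComponentAt A Q → InTubeZero A cZ x) ∧
          (W.InZeroComponentAt A Q → InTubeInf A x)

/-- **(X-RED0)** reduction inputs at level `p` itself, at every prime `q ≠ p`. -/
def XRed0 : Prop :=
  ∀ q : ℕ, q.Prime → q ≠ p → ∀ A : ValuationSubring Qb, A.LiesOverPrime q →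
    ReductionInputsModL A p

/-- **(X-RED)** every place reduction (in the sense of the Prelude) sends the tube of a cusp to the
reduction of that cusp. -/
def XRed (cZ : Place Qb (FF p)) : Prop :=
  ∀ q : ℕ, q.Prime → q ≠ p → ∀ A : ValuationSubring Qb, A.LiesOverPrime q →
    ∀ h : ReductionInputsModL A p, ∀ x : Place Qb (FF p),
      (InTubeZero A cZ x → placeReductionModL h x = placeReductionModL h cZ) ∧
      (InTubeInf A x → placeReductionModL h x = placeReductionModL h (cuspInf p))

/-- **(X-HECKE)** the tubes are stable under the Hecke correspondences `T_m`, `m ≠ p`. -/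
def XHecke (cZ : Place Qb (FF p)) : Prop :=
  ∀ (m : ℕ) [NeZero m], m.Prime → m ≠ p →
    ∀ (hα : HeckeAlphaBarIntegral Qb p m) (hβ : HeckeBetaBarIntegral Qb p m)
      [HasPrincipalDivisors Qb (laurentBaseChange Qb (modularFunctionFieldFull (p * m)))],
    ∀ q : ℕ, q.Prime → q ≠ p → ∀ A : ValuationSubring Qb, A.LiesOverPrime q →
      ∀ x y : Place Qb (FF p), heckeDivBar hα hβ (Finsupp.single x 1) y ≠ 0 →
        (InTubeZero A cZ x → InTubeZero A cZ y) ∧ (InTubeInf A x → InTubeInf A y)

/-! ### Tube classes: the only Hecke compatibility of reduction used by the endgame -/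

section TubeClasses

variable {p}

/-- A predicate on places which is stable under the Hecke correspondences `T_m`, `m ≠ p`. -/
def HeckeStable (T : Place Qb (FF p) → Prop) : Prop :=
  ∀ (m : ℕ) [NeZero m], m.Prime → m ≠ p →
    ∀ (hα : HeckeAlphaBarIntegral Qb p m) (hβ : HeckeBetaBarIntegral Qb p m)
      [HasPrincipalDivisors Qb (laurentBaseChange Qb (modularFunctionFieldFull (p * m)))],
    ∀ x y : Place Qb (FF p), heckeDivBar hα hβ (Finsupp.single x 1) y ≠ 0 → T x → T y

/-- The classes of degree-zero divisors supported on a set `T` of places. -/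
def supportedClasses (T : Place Qb (FF p) → Prop) : AddSubgroup (JZero p) where
  carrier := {z | ∃ D : Divisor.degZero (K := Qb) (F := FF p),
    (∀ y, (D : Divisor Qb (FF p)) y ≠ 0 → T y) ∧ z = Pic0.mk D}
  zero_mem' := ⟨0, fun y hy => absurd rfl hy, rfl⟩
  add_mem' := by
    rintro _ _ ⟨D, hD, rfl⟩ ⟨E, hE, rfl⟩
    refine ⟨D + E, fun y hy => ?_, rfl⟩
    by_cases h : (D : Divisor Qb (FF p)) y = 0
    · refine hE y fun h' => hy ?_
      rw [AddSubgroup.coe_add, Finsupp.add_apply, h, h', add_zero]
    · exact hD y h
  neg_mem' := by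
    rintro _ ⟨D, hD, rfl⟩
    refine ⟨-D, fun y hy => hD y fun h => hy ?_, rfl⟩
    rw [AddSubgroup.coe_neg, Finsupp.neg_apply, h, neg_zero]

theorem mem_supportedClasses {T : Place Qb (FF p) → Prop} {z : JZero p} :
    z ∈ supportedClasses T ↔ ∃ D : Divisor.degZero (K := Qb) (F := FF p),
      (∀ y, (D : Divisor Qb (FF p)) y ≠ 0 → T y) ∧ z = Pic0.mk D := Iff.rfl

/-- support of the image of a divisor under an additive map, in terms of the images of points. -/
theorem exists_of_map_apply_ne_zero (f : Divisor Qb (FF p) →+ Divisor Qb (FF p))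
    (D : Divisor Qb (FF p)) (y : Place Qb (FF p)) (hy : f D y ≠ 0) :
    ∃ x, D x ≠ 0 ∧ f (Finsupp.single x 1) y ≠ 0 := by
  classical
  induction D using Finsupp.induction with
  | zero => simp at hy
  | single_add x n D hx hn ih =>
    rw [map_add, Finsupp.add_apply] at hy
    by_cases h1 : f (Finsupp.single x n) y = 0
    · rw [h1, zero_add] at hy
      obtain ⟨x', hx', hfx'⟩ := ih hy
      refine ⟨x', ?_, hfx'⟩
      rw [Finsupp.add_apply]
      by_cases hxx : x' = x
      · subst hxx
        exact absurd (Finsupp.notMem_support_iff.mp hx) hx'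
      · rwa [Finsupp.single_eq_of_ne hxx, zero_add]
    · refine ⟨x, ?_, fun h0 => h1 ?_⟩
      · rw [Finsupp.add_apply, Finsupp.single_eq_same, Finsupp.notMem_support_iff.mp hx, add_zero]
        exact hn
      · have : Finsupp.single x n = n • Finsupp.single x (1 : ℤ) := by
          rw [Finsupp.smul_single, smul_eq_mul, mul_one]
        rw [this, map_zsmul, Finsupp.smul_apply, h0, smul_zero]

/-- `T_m` preserves the classes supported on a Hecke stable set. -/
theorem heckeOperatorBar_mem_supportedClasses {T : Place Qb (FF p) → Prop} (hT : HeckeStable T)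
    (m : Nat.Primes) (hm : (m : ℕ) ≠ p) {z : JZero p} (hz : z ∈ supportedClasses T) :
    heckeOperatorBar p m z ∈ supportedClasses T := by
  haveI : NeZero (m : ℕ) := ⟨m.2.ne_zero⟩
  obtain ⟨D, hD, rfl⟩ := hz
  rw [heckeOperatorBar_apply]
  by_cases h : HeckeInputsAlong Qb p (m : ℕ)
  · obtain ⟨hα, hβ, hP, hfin, hFI, hN⟩ := h
    haveI := hP
    rw [heckeOperatorAlong_eq hα hβ hFI hfin hN]
    refine ⟨Pic0.degZeroCorrespondence (heckeBetaBar Qb p m) (heckeAlphaBar Qb p m) hβ hα hFI D,
      fun y hy => ?_, rfl⟩
    obtain ⟨x, hx, hxy⟩ := exists_of_map_apply_ne_zero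
      (Divisor.correspondence (heckeBetaBar Qb p m) (heckeAlphaBar Qb p m) hβ hα)
      (D : Divisor Qb (FF p)) y hy
    exact hT m m.2 hm hα hβ x y hxy (hD x hx)
  · rw [heckeOperatorAlong_of_not h]
    exact (supportedClasses T).zero_mem

/-- every element of `heckeSub p` preserves the classes supported on a Hecke stable set. -/
theorem heckeSub_mem_supportedClasses {T : Place Qb (FF p) → Prop} (hT : HeckeStable T)
    {t : Module.End ℤ (JZero p)} (ht : t ∈ heckeSub p) {z : JZero p}
    (hz : z ∈ supportedClasses T) : t z ∈ supportedClasses T := by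
  unfold heckeSub at ht
  induction ht using Algebra.adjoin_induction generalizing z with
  | mem t ht =>
    obtain ⟨m, hm, rfl⟩ := ht
    exact heckeOperatorBar_mem_supportedClasses hT m hm hz
  | algebraMap n =>
    rw [Module.algebraMap_end_apply]
    exact (supportedClasses T).zsmul_mem hz n
  | add t t' _ _ iht iht' =>
    rw [LinearMap.add_apply]
    exact (supportedClasses T).add_mem (iht hz) (iht' hz)
  | mul t t' _ _ iht iht' =>
    rw [Module.End.mul_apply]
    exact iht (iht' hz)

/-- A class supported on a set of places which all reduce to the same place reduces to `0`. -/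
theorem reductionModL_eq_zero_of_mem_supportedClasses {A : ValuationSubring Qb}
    (h : ReductionInputsModL A p) (hdeg : ∀ P : Place Qb (FF p), P.deg = 1)
    {T : Place Qb (FF p) → Prop} (c : Place Qb (FF p))
    (hT : ∀ x, T x → placeReductionModL h x = placeReductionModL h c)
    {z : JZero p} (hz : z ∈ supportedClasses T) : reductionModL A p z = 0 := by
  classical
  obtain ⟨D, hD, rfl⟩ := hz
  rw [reductionModL_mk h]
  have key : Finsupp.mapDomain (placeReductionModL h) (D : Divisor Qb (FF p)) = 0 := by
    have h1 : Finsupp.mapDomain (placeReductionModL h) (D : Divisor Qb (FF p)) =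
        Finsupp.mapDomain (fun _ => placeReductionModL h c) (D : Divisor Qb (FF p)) := by
      refine Finsupp.mapDomain_congr fun x hx => hT x (hD x ?_)
      exact Finsupp.mem_support_iff.mp hx
    have h2 : Divisor.degree (D : Divisor Qb (FF p)) = 0 := Divisor.mem_degZero.mp D.2
    have h3 : ∀ E : Divisor Qb (FF p), Finsupp.mapDomain (fun _ => placeReductionModL h c) E =
        Finsupp.single (placeReductionModL h c) (Divisor.degree E) := by
      intro E
      induction E using Finsupp.induction with
      | zero => simp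
      | single_add x n E _ _ ih =>
        rw [Finsupp.mapDomain_add, ih, Finsupp.mapDomain_single, map_add, Divisor.degree_single,
          hdeg, Nat.cast_one, mul_one, Finsupp.single_add]
    rw [h1, h3, h2, Finsupp.single_zero]
  have : reductionDegZeroAlong (placeReductionModL h)
      (isPlaceReductionModL_placeReductionModL h).1 D = 0 := by
    apply Subtype.ext
    rw [coe_reductionDegZeroAlong, key]
    rfl
  rw [this]
  rfl

end TubeClasses

/-! ### Tubes are Hecke stable (from `XHecke`), cusp package, global contract -/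

section Contracts2

variable {p}

theorem heckeStable_inTubeZero {cZ : Place Qb (FF p)} (hH : XHecke p cZ) {q : ℕ} (hq : q.Prime)
    (hqp : q ≠ p) {A : ValuationSubring Qb} (hA : A.LiesOverPrime q) :
    HeckeStable (InTubeZero A cZ) :=
  fun m _ hm hmp hα hβ _ x y hxy hx => (hH m hm hmp hα hβ q hq hqp A hA x y hxy).1 hx

theorem heckeStable_inTubeInf {cZ : Place Qb (FF p)} (hH : XHecke p cZ) {q : ℕ} (hq : q.Prime)
    (hqp : q ≠ p) {A : ValuationSubring Qb} (hA : A.LiesOverPrime q) :
    HeckeStable (InTubeInf (p := p) A) :=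
  fun m _ hm hmp hα hβ _ x y hxy hx => (hH m hm hmp hα hβ q hq hqp A hA x y hxy).2 hx

variable (p)

/-- All places of `FF p` have degree one (`ℚbar` is algebraically closed). -/
def DegOne : Prop := ∀ P : Place Qb (FF p), P.deg = 1

variable {p}

/-- The degree-zero divisor `(x) - (y)`. -/
def pointDiv (hdeg : DegOne p) (x y : Place Qb (FF p)) : Divisor.degZero (K := Qb) (F := FF p) :=
  ⟨Finsupp.single x 1 - Finsupp.single y 1, by
    rw [Divisor.mem_degZero, map_sub, Divisor.degree_single, Divisor.degree_single, hdeg x, hdeg y,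
      sub_self]⟩

@[simp] theorem coe_pointDiv (hdeg : DegOne p) (x y : Place Qb (FF p)) :
    (pointDiv hdeg x y : Divisor Qb (FF p)) = Finsupp.single x 1 - Finsupp.single y 1 := rfl

/-- The class of `(x) - (y)` in `JZero p`. -/
def pointClass (hdeg : DegOne p) (x y : Place Qb (FF p)) : JZero p := Pic0.mk (pointDiv hdeg x y)

theorem pointClass_add (hdeg : DegOne p) (x y w : Place Qb (FF p)) :
    pointClass hdeg x y + pointClass hdeg y w = pointClass hdeg x w := by
  unfold pointClass
  rw [← Pic0.mk_add]
  congr 1
  apply Subtype.ext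
  rw [AddSubgroup.coe_add, coe_pointDiv, coe_pointDiv, coe_pointDiv]
  abel

/-- `(x) - (y)` is supported on any set containing `x` and `y`. -/
theorem pointClass_mem_supportedClasses (hdeg : DegOne p) {T : Place Qb (FF p) → Prop}
    {x y : Place Qb (FF p)} (hx : T x) (hy : T y) : pointClass hdeg x y ∈ supportedClasses T := by
  classical
  refine ⟨pointDiv hdeg x y, fun w hw => ?_, rfl⟩
  rw [coe_pointDiv, Finsupp.sub_apply] at hw
  by_cases h1 : w = x
  · exact h1 ▸ hx
  · by_cases h2 : w = y
    · exact h2 ▸ hy
    · exfalso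
      apply hw
      rw [Finsupp.single_eq_of_ne h1, Finsupp.single_eq_of_ne h2, sub_zero]

/-- The class of a divisor of two Galois-fixed places is Galois-fixed. -/
theorem smul_pointClass (hdeg : DegOne p) {x y : Place Qb (FF p)} (hx : PlaceFixed p x)
    (hy : PlaceFixed p y) (σ : GQ) : σ • pointClass hdeg x y = pointClass hdeg x y := by
  unfold pointClass
  rw [galois_smul_pic0_def, SemilinearAut.pic0_smul_mk]
  congr 1
  apply Subtype.ext
  rw [SemilinearAut.coe_degZeroSMulHom, coe_pointDiv, smul_sub, SemilinearAut.smul_single,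
    SemilinearAut.smul_single, hx σ, hy σ]

/-- **Cusp package**: the cusp `0` has the right orders, both cusps are rational, and the cuspidal
class `c = (0) - (∞)` is killed by `p - 1`. -/
structure CuspPkg (hdeg : DegOne p) (cZ : Place Qb (FF p)) : Prop where
  isCuspZero : IsCuspZero p cZ
  fixedZero : PlaceFixed p cZ
  fixedInf : PlaceFixed p (cuspInf p)
  order : (p - 1) • pointClass hdeg cZ (cuspInf p) = 0

/-- **Global contract (G)**: an element `t` of the Hecke algebra away from `p` which does not kill
the cuspidal class and sends every rational point of `J₀(p)` to a torsion point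
("the Eisenstein part of `J₀(p)(ℚ)` is torsion"). -/
def GlobalEis (hdeg : DegOne p) (cZ : Place Qb (FF p)) : Prop :=
  ∃ t ∈ heckeSub p, t (pointClass hdeg cZ (cuspInf p)) ≠ 0 ∧
    ∀ z : JZero p, (∀ σ : GQ, σ • z = z) → ∃ k : ℕ, 0 < k ∧ k • t z = 0

end Contracts2

end Fermat.Agent.MAZ.Spec.XSpec62
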