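/-
Program MAZ (S15 = Mazur's step three), chapter Spec, helper26: THE GLOBAL SIDE (G-SIDE).

Compiled specification of the descent chapter: every brick is a `def … : Prop` (or a `structure … : Prop`),
and the theorems of this file derive helper62's contract `XSpec62.GlobalEis` from the bricks.

Layout
* §0 `HeckeModel` : a commutative ring `T` acting on `JZero p` with image `heckeSub p`, commuting with
  Galois (bricks `HeckeComm`, `HeckeGalois` give `ExistsHeckeModel`);
* §1 ALGEBRA TOP : `globalEis_of_bound` : `GlobalEis` from Mordell-Weil (`MW` = S17 at level `p`),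
  the cuspidal character (`CuspEis`), a finite index `T`-submodule `A` of the rational points, the
  UNIFORM BOUND `EisBound` on the `P`-primary parts of `A / r^k A`, and the commutative algebra
  brick `AlgFin` (helper79, `EisKill79`);
* §2 DESCENT VOCABULARY : cocycles `Z1`, coboundaries `B1`, `H1`, the local conditions `UnramAt`
  (unramified at `q`, INCLUDING `q = p`), `FlatAtR` (the extension module of the cocycle has a finite
  flat model over `ℤ_(r)`, literal shape of S19 / `TW.FF.Closure68.ModelOf`), the Selmer set `SelSet`;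
  bricks `KummerSel` (Kummer injection into the Selmer set, contains K-FLAT and P-UNR) and `SelBound`
  (Mazur's inequality, uniform in `k`); `eisBound_of_kummer_sel`;
* §3 `globalEis_of_contracts` : the G-side end to end.
-/
import Mathlib
import Fermat.Prelude.Def_GaloisRep_Flat
import Fermat.Agent.MAZ.Spec.XSpec62

set_option autoImplicit false
set_option linter.unusedSectionVars false
set_option linter.unusedVariables false
set_option linter.style.haveILetI false

open AlgebraicCurve ModularCurve

noncomputable section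

namespace Fermat.Agent.MAZ.Spec.GSpec26

open Fermat.Agent.X0 Fermat.Agent.MAZ.Spec.XSpec62

variable (p : ℕ) [NeZero p]

/-! ## 0. The Hecke model -/

/-- A commutative ring `T` acting on `JZero p` is a *Hecke model* if its image in `End (JZero p)` is
`heckeSub p` and its action commutes with the Galois action. -/
structure HeckeModel (T : Type) [CommRing T] [Module T (JZero p)] : Prop where
  mem_iff : ∀ f : Module.End ℤ (JZero p), f ∈ heckeSub p ↔ ∃ t : T, ∀ z, f z = t • z
  galois : ∀ (t : T) (σ : GQ) (z : JZero p), σ • (t • z) = t • (σ • z)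

/-- **(G-COMM)** the Hecke operators `T_m`, `m ≠ p`, commute on `JZero p`. -/
def HeckeComm : Prop :=
  ∀ m m' : Nat.Primes, (m : ℕ) ≠ p → (m' : ℕ) ≠ p →
    heckeOperatorBar p m * heckeOperatorBar p m' = heckeOperatorBar p m' * heckeOperatorBar p m

/-- **(G-GAL)** the Hecke operators `T_m`, `m ≠ p`, commute with the Galois action. -/
def HeckeGalois : Prop :=
  ∀ m : Nat.Primes, (m : ℕ) ≠ p → ∀ (σ : GQ) (z : JZero p),
    σ • heckeOperatorBar p m z = heckeOperatorBar p m (σ • z)

/-- **(G-MODEL)** a Hecke model exists (`= HeckeComm + HeckeGalois`, with `T := ↥(heckeSub p)`). -/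
def ExistsHeckeModel : Prop :=
  ∃ (T : Type) (_ : CommRing T) (_ : Module T (JZero p)), HeckeModel p T

/-- **(S17 at level `p`)** Mordell-Weil, literal form of S17 for `N = p`. -/
def MW : Prop := AddGroup.FG ↥(FixedPoints.addSubgroup GQ (JZero p))

variable {p} {T : Type} [CommRing T] [Module T (JZero p)]

/-- the rational points `J₀(p)(ℚ)` as a `T`-submodule. -/
def ratPoints (hT : HeckeModel p T) : Submodule T (JZero p) where
  carrier := {z | ∀ σ : GQ, σ • z = z}
  zero_mem' := fun σ => smul_zero σ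
  add_mem' := fun {a b} ha hb σ => by
    change σ • (a + b) = a + b
    rw [smul_add, ha σ, hb σ]
  smul_mem' := fun t z hz σ => by
    change σ • (t • z) = t • z
    rw [hT.galois, hz σ]

theorem mem_ratPoints (hT : HeckeModel p T) {z : JZero p} :
    z ∈ ratPoints hT ↔ ∀ σ : GQ, σ • z = z := Iff.rfl

/-! ## 1. Algebra top -/

/-- The `P`-primary part of a `T`-module, as a set. -/
def primarySet (P : Ideal T) (M : Type*) [AddCommGroup M] [Module T M] : Set M :=
  {x | ∃ n : ℕ, ∀ t ∈ P ^ n, t • x = 0}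

/-- **(G-CUSP)** the cuspidal character: `m • c` has exact order `r` and `T` acts on it through
`π : T → ZMod r` (`c = (0) - (∞)`; consequence of `T_ℓ c = (1 + ℓ) c` and `r ∣ ord c`). -/
structure CuspEis (hT : HeckeModel p T) (hdeg : DegOne p) (cZ : Place Qb (FF p)) (r : ℕ)
    (π : T →+* ZMod r) (m : ℕ) : Prop where
  ne : m • pointClass hdeg cZ (cuspInf p) ≠ 0
  ord : r • (m • pointClass hdeg cZ (cuspInf p)) = 0
  eis : ∀ t : T, t • (m • pointClass hdeg cZ (cuspInf p)) =
    (π t).val • (m • pointClass hdeg cZ (cuspInf p))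

/-- **(G-BOUND)** the output of the descent: the `P`-primary parts of `A / r^k A` are finite of order
bounded independently of `k`. -/
def EisBound (A : Submodule T (JZero p)) (P : Ideal T) (r : ℕ) (B : ℕ) : Prop :=
  ∀ k : ℕ, (primarySet P (A ⧸ (Ideal.span {(r : T) ^ k} • ⊤ : Submodule T A))).Finite ∧
    (primarySet P (A ⧸ (Ideal.span {(r : T) ^ k} • ⊤ : Submodule T A))).ncard ≤ B

/-- **(G-ALG-FIN)** the commutative algebra end (helper79, `EisKill79.exists_eisenstein_killer_of_selmer`,
Mathlib only): a finitely generated `ℤ`-module `A` with a `T`-action whose quotients `A / r^k A` have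
`P`-primary parts of bounded order is killed, up to torsion, by some `s ≡ 1 mod P`. -/
def AlgFin : Prop :=
  ∀ (T : Type) [CommRing T] (A : Type) [AddCommGroup A] [Module T A], Module.Finite ℤ A →
    ∀ (P : Ideal T) (r : ℕ), 0 < r → (r : T) ∈ P → ∀ B : ℕ,
      (∀ k : ℕ, (primarySet P (A ⧸ (Ideal.span {(r : T) ^ k} • ⊤ : Submodule T A))).ncard ≤ B) →
      ∃ s : T, s - 1 ∈ P ∧ ∃ N : ℕ, 0 < N ∧ ∀ a : A, N • (s • a) = 0

/-- finite index, in exponent form. -/
def FiniteIndexIn (A A' : Submodule T (JZero p)) : Prop :=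
  A ≤ A' ∧ ∃ N : ℕ, 0 < N ∧ ∀ z ∈ A', N • z ∈ A

/-- the endomorphism of `JZero p` given by `s : T`. -/
def smulEnd (s : T) : Module.End ℤ (JZero p) :=
  (DistribSMul.toAddMonoidHom (JZero p) s).toIntLinearMap

@[simp] theorem smulEnd_apply (s : T) (z : JZero p) : smulEnd s z = s • z := rfl

theorem smulEnd_mem (hT : HeckeModel p T) (s : T) : smulEnd (p := p) s ∈ heckeSub p :=
  (hT.mem_iff _).mpr ⟨s, fun _ => rfl⟩

/-- **`GlobalEis` from an Eisenstein killer.** -/
theorem globalEis_of_killer (hT : HeckeModel p T) (hdeg : DegOne p) (cZ : Place Qb (FF p)) (r : ℕ)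
    [Fact r.Prime] (π : T →+* ZMod r) (m : ℕ) (hC : CuspEis hT hdeg cZ r π m)
    (s : T) (hs : s - 1 ∈ RingHom.ker π)
    (htors : ∀ z ∈ ratPoints hT, ∃ k : ℕ, 0 < k ∧ k • (s • z) = 0) : GlobalEis hdeg cZ := by
  refine ⟨smulEnd s, smulEnd_mem hT s, ?_, fun z hz => ?_⟩
  · intro h0
    rw [smulEnd_apply] at h0
    have hπ : π s = 1 := by
      have := RingHom.mem_ker.mp hs
      rw [map_sub, map_one, sub_eq_zero] at this
      exact this
    have h1 : s • (m • pointClass hdeg cZ (cuspInf p)) = m • pointClass hdeg cZ (cuspInf p) := by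
      haveI : Fact (1 < r) := ⟨(Fact.out : r.Prime).one_lt⟩
      rw [hC.eis, hπ, ZMod.val_one, one_smul]
    apply hC.ne
    rw [← h1, smul_comm, h0, smul_zero]
  · obtain ⟨k, hk, hkz⟩ := htors z hz
    exact ⟨k, hk, hkz⟩

/-- **(G-side, algebra top) `GlobalEis` from the uniform bound.** -/
theorem globalEis_of_bound (hT : HeckeModel p T) (hMW : MW p) (hdeg : DegOne p)
    (cZ : Place Qb (FF p)) (r : ℕ) [Fact r.Prime] (π : T →+* ZMod r) (m : ℕ)
    (hC : CuspEis hT hdeg cZ r π m) (A : Submodule T (JZero p))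
    (hA : FiniteIndexIn A (ratPoints hT)) (B : ℕ) (hB : EisBound A (RingHom.ker π) r B)
    (hAlg : AlgFin) : GlobalEis hdeg cZ := by
  -- `A` is a finitely generated abelian group
  haveI hfg : Module.Finite ℤ ↥(FixedPoints.addSubgroup GQ (JZero p)) :=
    Module.Finite.iff_addGroup_fg.mpr hMW
  have hmemA : ∀ a : A, (a : JZero p) ∈ FixedPoints.addSubgroup GQ (JZero p) := fun a σ =>
    hA.1 a.2 σ
  let ι : ↥A →ₗ[ℤ] ↥(FixedPoints.addSubgroup GQ (JZero p)) :=
    { toFun := fun a => ⟨(a : JZero p), hmemA a⟩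
      map_add' := fun a b => rfl
      map_smul' := fun n a => by
        apply Subtype.ext
        change ((n • a : _) : JZero p) = n • (a : JZero p)
        exact AddSubgroupClass.coe_zsmul a n }
  have hι : Function.Injective ι := fun a b hab => by
    apply Subtype.ext
    exact congrArg (fun x : ↥(FixedPoints.addSubgroup GQ (JZero p)) => (x : JZero p)) hab
  haveI : IsNoetherian ℤ ↥(FixedPoints.addSubgroup GQ (JZero p)) :=
    isNoetherian_of_isNoetherianRing_of_finite ℤ _
  haveI : Module.Finite ℤ ↥A := Module.Finite.of_injective ι hι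
  have hr : 0 < r := (Fact.out : r.Prime).pos
  have hrP : (r : T) ∈ RingHom.ker π := by
    rw [RingHom.mem_ker, map_natCast, ZMod.natCast_self]
  obtain ⟨s, hs, N, hN, hsA⟩ := hAlg T ↥A inferInstance (RingHom.ker π) r hr hrP B
    (fun k => (hB k).2)
  refine globalEis_of_killer hT hdeg cZ r π m hC s hs fun z hz => ?_
  obtain ⟨N', hN', hz'⟩ := hA.2
  have h1 := hsA ⟨N' • z, hz' z hz⟩
  have h2 : N • (s • (N' • z)) = 0 := by
    have := congrArg (fun x : ↥A => (x : JZero p)) h1
    simpa using this
  refine ⟨N * N', Nat.mul_pos hN hN', ?_⟩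
  rw [mul_smul, smul_comm N' s z]
  exact h2

/-! ## 2. Descent vocabulary -/

section Descent

variable (p) in
/-- cochains `G_ℚ → J₀(p)(ℚ̄)` (a type synonym, so that the `T`-module structure is found on one
instance path). -/
def Coch : Type := GQ → JZero p

instance : CoeFun (Coch p) (fun _ => GQ → JZero p) := ⟨fun x => x⟩

instance : AddCommGroup (Coch p) := inferInstanceAs (AddCommGroup (GQ → JZero p))

instance : Module T (Coch p) := inferInstanceAs (Module T (GQ → JZero p))

theorem Coch.add_apply (x y : Coch p) (σ : GQ) : (x + y) σ = x σ + y σ := rfl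

theorem Coch.smul_apply (t : T) (x : Coch p) (σ : GQ) : (t • x) σ = t • x σ := rfl

theorem Coch.zero_apply (σ : GQ) : (0 : Coch p) σ = 0 := rfl

variable (hT : HeckeModel p T) (r k : ℕ)

/-- `1`-cocycles of `G_ℚ` with values in `J₀(p)[r^k]` (no continuity is imposed: the flat condition
`FlatAtR` below forces it). A `T`-submodule of the cochains. -/
def Z1 : Submodule T (Coch p) where
  carrier := {x | (∀ σ τ : GQ, x (σ * τ) = x σ + σ • x τ) ∧ ∀ σ, (r ^ k) • x σ = 0}
  zero_mem' := ⟨fun σ τ => by
    rw [Coch.zero_apply, Coch.zero_apply, Coch.zero_apply, zero_add]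
    exact (smul_zero (A := JZero p) σ).symm, fun σ => by
    rw [Coch.zero_apply]
    exact smul_zero _⟩
  add_mem' := by
    rintro x y ⟨hx1, hx2⟩ ⟨hy1, hy2⟩
    refine ⟨fun σ τ => ?_, fun σ => ?_⟩
    · rw [Coch.add_apply, Coch.add_apply, Coch.add_apply, hx1, hy1, smul_add]
      abel
    · rw [Coch.add_apply, nsmul_add, hx2, hy2, add_zero]
  smul_mem' := by
    rintro t x ⟨hx1, hx2⟩
    refine ⟨fun σ τ => ?_, fun σ => ?_⟩
    · rw [Coch.smul_apply, Coch.smul_apply, Coch.smul_apply, hx1, smul_add, hT.galois]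
    · rw [Coch.smul_apply, smul_comm, hx2, smul_zero]

/-- `1`-coboundaries with values in `J₀(p)[r^k]`. -/
def B1 : Submodule T (Coch p) where
  carrier := {x | ∃ m : JZero p, (r ^ k) • m = 0 ∧ ∀ σ : GQ, x σ = σ • m - m}
  zero_mem' := ⟨0, smul_zero _, fun σ => by
    rw [Coch.zero_apply, sub_zero]
    exact (smul_zero (A := JZero p) σ).symm⟩
  add_mem' := by
    rintro x y ⟨m, hm, hx⟩ ⟨n, hn, hy⟩
    refine ⟨m + n, by rw [nsmul_add, hm, hn, add_zero], fun σ => ?_⟩
    rw [Coch.add_apply, hx, hy, smul_add]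
    abel
  smul_mem' := by
    rintro t x ⟨m, hm, hx⟩
    refine ⟨t • m, by rw [smul_comm, hm, smul_zero], fun σ => ?_⟩
    rw [Coch.smul_apply, hx, smul_sub, hT.galois]

/-- `H¹(G_ℚ, J₀(p)[r^k])` as a `T`-module. -/
abbrev H1 : Type := (Z1 hT r k) ⧸ ((B1 hT r k).comap (Z1 hT r k).subtype)

variable (p)

/-- `J₀(p)[r^k]`, in the literal shape of S19. -/
abbrev Mk : Submodule ℤ (JZero p) := Submodule.torsionBy ℤ (JZero p) ((r : ℤ) ^ k)

variable {p}

/-- the Galois action on `J₀(p)[r^k]`. -/
def galMk (σ : GQ) (m : ↥(Mk p r k)) : ↥(Mk p r k) :=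
  ⟨σ • (m : JZero p), by
    rw [Submodule.mem_torsionBy_iff]
    have h := (Submodule.mem_torsionBy_iff _ _).mp m.2
    have h2 := map_zsmul (DistribSMul.toAddMonoidHom (JZero p) σ) ((r : ℤ) ^ k) (m : JZero p)
    rw [h, map_zero] at h2
    exact h2.symm⟩

/-- `M` with the maps `act σ` is, `G_ℚ`-equivariantly, the group of `ℚ̄`-points of a finite flat
cocommutative Hopf algebra over `ℤ_(r)`: the literal shape of S19, and of
`TW.FF.Closure68.ModelOf (GaloisRep.ratLocalizedAt r) ℚ Qb M act` (closed under stable subgroups,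
quotients and products: `Closure68.ModelOf.sub / .quotient / .prod`). -/
def IsModel (r : ℕ) (M : Type) [AddCommGroup M] (act : GQ → M → M) : Prop :=
  ∃ (H : Type) (_ : CommRing H) (_ : HopfAlgebra (GaloisRep.ratLocalizedAt r) H),
    Module.Finite (GaloisRep.ratLocalizedAt r) H ∧ Module.Flat (GaloisRep.ratLocalizedAt r) H ∧
    Coalgebra.IsCocomm (GaloisRep.ratLocalizedAt r) H ∧
    ∃ e : WithConv (H →ₐ[GaloisRep.ratLocalizedAt r] Qb) ≃ M,
      (∀ f g : WithConv (H →ₐ[GaloisRep.ratLocalizedAt r] Qb), e (f * g) = e f + e g) ∧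
      ∀ (σ : GQ) (f g : WithConv (H →ₐ[GaloisRep.ratLocalizedAt r] Qb)),
        (∀ h : H, g h = σ (f h)) → e g = act σ (e f)

/-- the extension module `E_y = J₀(p)[r^k] × ℤ/r^k` of a cocycle `y`:
`σ (m, a) = (σ m + a • y σ, a)`. -/
def extAct (y : GQ → ↥(Mk p r k)) (σ : GQ) (e : ↥(Mk p r k) × ZMod (r ^ k)) :
    ↥(Mk p r k) × ZMod (r ^ k) :=
  (galMk r k σ e.1 + e.2.val • y σ, e.2)

/-- **flat at `r`**: the extension module of the cocycle has a finite flat model over `ℤ_(r)`. -/
def FlatAtR (x : GQ → JZero p) : Prop :=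
  ∃ y : GQ → ↥(Mk p r k), (∀ σ, (y σ : JZero p) = x σ) ∧
    IsModel r (↥(Mk p r k) × ZMod (r ^ k)) (extAct r k y)

/-- **unramified at `q`**: the restriction of the cocycle to every inertia group over `q` is a
coboundary. -/
def UnramAt (x : GQ → JZero p) (q : ℕ) : Prop :=
  ∀ 𝔄 : ValuationSubring Qb, 𝔄.LiesOverPrime q → ∃ m : JZero p, (r ^ k) • m = 0 ∧
    ∀ σ ∈ 𝔄.inertiaSubgroupIn ℚ, x σ = σ • m - m

/-- the Selmer condition: unramified at every prime `q ≠ r` (INCLUDING `q = p`), flat at `r`. -/
def IsSelmer (x : GQ → JZero p) : Prop :=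
  (∀ q : ℕ, q.Prime → q ≠ r → UnramAt r k x q) ∧ FlatAtR r k x

/-- the Selmer set in `H¹(G_ℚ, J₀(p)[r^k])`. -/
def SelSet : Set (H1 hT r k) :=
  {ξ | ∃ x : ↥(Z1 hT r k), Submodule.Quotient.mk x = ξ ∧ IsSelmer r k ((x : Coch p) : GQ → JZero p)}

/-- **(G-KUM)** the Kummer map of `A` into the Selmer set, `T`-linearly, with kernel inside
`r^k J₀(p)(ℚ)` (NOT `r^k A`: helper90's warning (W1), the component group has `r`-torsion). Contains
(K-CONST) the construction `z ↦ (σ ↦ σ y - y)`, `r^k y = z` (needs: `J₀(p)(ℚ̄)` is `r`-divisible);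
(K-UNR) unramified at `q ∤ p r`; (P-UNR) unramified at `p` for `z ∈ A`, from `PFin`;
(K-FLAT) flat at `r` (#1530). -/
def KummerSel (A : Submodule T (JZero p)) : Prop :=
  ∀ k : ℕ, ∃ f : A →ₗ[T] H1 hT r k,
    (∀ a : A, f a = 0 → ∃ w ∈ ratPoints hT, (r ^ k) • w = (a : JZero p)) ∧
      ∀ a, f a ∈ SelSet hT r k

/-- **(G-SEL)** Mazur's inequality, uniformly in `k`: the `P`-primary part of the Selmer set is finite
of order at most `B`. -/
def SelBound (P : Ideal T) (B : ℕ) : Prop :=
  ∀ k : ℕ, (SelSet hT r k ∩ primarySet P (H1 hT r k)).Finite ∧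
    (SelSet hT r k ∩ primarySet P (H1 hT r k)).ncard ≤ B

/-- **(G-ALG-KER)** (Mathlib only) a `T`-linear map `f : A → H` whose kernel lies in `r^k Y`, `A ≤ Y` of
finite index, `Y` finitely generated: the `P`-primary part of `A / r^k A` is bounded by
`#(Y / N Y)` times the `P`-primary part of any set containing the image. -/
def KerAdapter : Prop :=
  ∀ (T : Type) [CommRing T] (J : Type) [AddCommGroup J] [Module T J] (Y A : Submodule T J),
    A ≤ Y → Module.Finite ℤ Y → ∀ N : ℕ, 0 < N → (∀ y ∈ Y, N • y ∈ A) →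
    ∀ (P : Ideal T) (r B : ℕ), ∃ B' : ℕ, ∀ (k : ℕ) (H : Type) [AddCommGroup H] [Module T H]
      (S : Set H) (f : A →ₗ[T] H),
      (∀ a : A, f a = 0 → ∃ w ∈ Y, (r ^ k) • w = (a : J)) → (∀ a, f a ∈ S) →
      (S ∩ primarySet P H).Finite → (S ∩ primarySet P H).ncard ≤ B →
      (primarySet P (A ⧸ (Ideal.span {(r : T) ^ k} • ⊤ : Submodule T A))).Finite ∧
        (primarySet P (A ⧸ (Ideal.span {(r : T) ^ k} • ⊤ : Submodule T A))).ncard ≤ B'

/-- **(G-BOUND) from (G-KUM) + (G-SEL) + (G-ALG-KER).** -/
theorem eisBound_of_kummer_sel (hMW : MW p) (A : Submodule T (JZero p))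
    (hA : FiniteIndexIn A (ratPoints hT)) (P : Ideal T) (B : ℕ)
    (hK : KummerSel hT r A) (hS : SelBound hT r P B) (hKer : KerAdapter) :
    ∃ B' : ℕ, EisBound A P r B' := by
  haveI hfg : Module.Finite ℤ ↥(FixedPoints.addSubgroup GQ (JZero p)) :=
    Module.Finite.iff_addGroup_fg.mpr hMW
  let ι : ↥(ratPoints hT) →ₗ[ℤ] ↥(FixedPoints.addSubgroup GQ (JZero p)) :=
    { toFun := fun a => ⟨(a : JZero p), fun σ => a.2 σ⟩
      map_add' := fun a b => rfl
      map_smul' := fun n a => by
        apply Subtype.ext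
        change ((n • a : _) : JZero p) = n • (a : JZero p)
        exact AddSubgroupClass.coe_zsmul a n }
  have hι : Function.Injective ι := fun a b hab => by
    apply Subtype.ext
    exact congrArg (fun x : ↥(FixedPoints.addSubgroup GQ (JZero p)) => (x : JZero p)) hab
  haveI : IsNoetherian ℤ ↥(FixedPoints.addSubgroup GQ (JZero p)) :=
    isNoetherian_of_isNoetherianRing_of_finite ℤ _
  haveI hY : Module.Finite ℤ ↥(ratPoints hT) := Module.Finite.of_injective ι hι
  obtain ⟨N, hN, hNA⟩ := hA.2
  obtain ⟨B', hB'⟩ := hKer T (JZero p) (ratPoints hT) A hA.1 hY N hN hNA P r B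
  refine ⟨B', fun k => ?_⟩
  obtain ⟨f, hfker, hfS⟩ := hK k
  obtain ⟨hfin, hcard⟩ := hS k
  exact hB' k (H1 hT r k) (SelSet hT r k) f hfker hfS hfin hcard

end Descent

/-! ## 3. The G-side end to end -/

/-- **(P-FIN)** the `p`-adic input: a finite index `T`-submodule `A` of the rational points all of whose
elements are, for every `k`, `r^k`-divisible by a point fixed by inertia at `p` (`A = J⁰(ℤ)`:
`J⁰(ℤ_p^unr)` is `r`-divisible and the component group is finite). -/
def PFin (hT : HeckeModel p T) (r : ℕ) (A : Submodule T (JZero p)) : Prop :=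
  FiniteIndexIn A (ratPoints hT) ∧
    ∀ z ∈ A, ∀ k : ℕ, ∀ 𝔄 : ValuationSubring Qb, 𝔄.LiesOverPrime p →
      ∃ y : JZero p, (r ^ k) • y = z ∧ ∀ σ ∈ 𝔄.inertiaSubgroupIn ℚ, σ • y = y

/-- **THE G-SIDE: `GlobalEis` from the bricks.** -/
theorem globalEis_of_contracts (hT : HeckeModel p T) (hMW : MW p) (hdeg : DegOne p)
    (cZ : Place Qb (FF p)) (r : ℕ) [Fact r.Prime] (π : T →+* ZMod r) (m : ℕ)
    (hC : CuspEis hT hdeg cZ r π m) (A : Submodule T (JZero p)) (hA : PFin hT r A)
    (hK : KummerSel hT r A) (B : ℕ) (hS : SelBound hT r (RingHom.ker π) B) (hKer : KerAdapter)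
    (hAlg : AlgFin) : GlobalEis hdeg cZ := by
  obtain ⟨B', hB'⟩ := eisBound_of_kummer_sel hT r hMW A hA.1 (RingHom.ker π) B hK hS hKer
  exact globalEis_of_bound hT hMW hdeg cZ r π m hC A hA.1 B' hB' hAlg

end Fermat.Agent.MAZ.Spec.GSpec26

/-!
## Brick table of the G-side (owners in the team database, stmt = 'S15')

TOP (this file): `globalEis_of_contracts`.
* (G-MODEL) `ExistsHeckeModel p` from `HeckeComm p` (G-COMM) and `HeckeGalois p` (G-GAL).
* (S17 at level `p`) `MW p`.
* (G-CUSP) `CuspEis hT hdeg cZ r π m` : `r` a prime divisor of the order of `c = (0) - (∞)`.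
* (G-ALG-FIN) `AlgFin` (Mathlib only).
* (P-FIN) `PFin hT r A`.
* (G-KUM) `KummerSel hT r A` = (K-CONST) + (K-UNR) + (P-UNR, from `PFin`) + (K-FLAT); (G-ALG-KER) `KerAdapter`.
* (G-SEL) `SelBound hT r (RingHom.ker π) B` = Mazur's inequality, by devissage:
  (D1) the Selmer complex (triples: a global cocycle, an unramified local cocycle at `p`, a comparison
       element) with finite part `N^f := N^{I_p}` on subobjects and its image on quotients, its six term
       sequence and the counting inequality (`SelmerCount95`, `SelmerSubadd11`);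
  (D2) `EisData` for the `P`-primary part of `J₀(p)[r^k]` (Eichler-Shimura relation and Chebotarev), hence
       a filtration with graded pieces of order `r` with trivial or cyclotomic action (`EisFiltration19`);
  (D3) the four rank one cases: (R1) trivial action, finite at `p` : Minkowski; (R2) cyclotomic action,
       finite at `p` : units of `ℤ`; (R3) trivial action, zero finite part : Minkowski again (a class which
       is locally trivial at `p` is unramified at `p`); (R4) cyclotomic action, zero finite part : the only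
       case with a positive contribution; (R0) a flat class is unramified at `r` (trivial action) resp. a
       unit at `r` (cyclotomic action);
  (D4) the number of pieces with zero finite part is at most half the length : inertia at `p` acts on
       `J₀(p)[r^k]` through a procyclic quotient with `(σ - 1)(τ - 1) = 0`;
  (D5) the number of pieces with trivial action is half the length : Weil pairing, or rank two over the
       Hecke algebra;
  (D6) `J₀(p)(ℚ)[r^∞]` is finite (from `MW p`).
* (R2-COMPAT), only for `r = 2` : `FlatAtR` must be strengthened by "the model of the extension module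
  induces the constant model on the quotient `ℤ/2^k` and the model of S19 on `J₀(p)[2^k]`", and
  `8 ∣ p - 1`.
-/
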