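/-
Program MAZ (S15 = Mazur's step three), chapter Spec, helper62: THE TOP ASSEMBLY, SECOND FORM.

`s15_of_contracts_inj` : the literal statement of S15 from
* the point side contracts `XMod`, `XHecke`, `CuspPkg`, `DegOne` of `XSpec62`;
* the new contract `XInj` ("a torsion class of order prime to `q` supported in a tube at `q` is zero"),
  which replaces the reduction map at level `p` (`XRed0`, `XRed`) and every use of S18;
* the global contract `GlobalEis`;
* L1 (helper28, landed) and the existence of places of `ℚbar` over `2` and `3`, in literal form.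

Endgame: `z = (x) - (0)`, `c = (0) - (∞)`; `t z` is torsion and is supported in the tube of `0` at `2`
and at `3`, hence `t z = 0` (`XInj` at `2` kills the odd part, then `XInj` at `3`); if `Q` met the
identity component at `ℓ` then `t (z + c) = t c` would be supported in the tube of `∞` at `ℓ`;
`(p - 1) t c = 0` and `ℓ ∤ p - 1` (L1) give `t c = 0`, contradicting `t c ≠ 0`.
-/
import Mathlib
import Fermat.Agent.MAZ.Spec.XSpec62

set_option autoImplicit false
set_option linter.unusedSectionVars false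
set_option linter.style.haveILetI false

open AlgebraicCurve ModularCurve
open WeierstrassCurve WeierstrassCurve.Affine

noncomputable section

namespace Fermat.Agent.MAZ.Spec.TopInj62

open Fermat.Agent.X0 Fermat.Agent.MAZ.Spec.XSpec62

/-- **(X-INJ)** a class supported in a tube at `q`, killed by an integer prime to `q`, is zero. -/
def XInj (p : ℕ) [NeZero p] (cZ : Place Qb (FF p)) : Prop :=
  ∀ q : ℕ, q.Prime → q ≠ p → ∀ A : ValuationSubring Qb, A.LiesOverPrime q →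
    ∀ m : ℕ, ¬ q ∣ m →
      (∀ z ∈ supportedClasses (InTubeZero A cZ), m • z = 0 → z = 0) ∧
      (∀ z ∈ supportedClasses (InTubeInf (p := p) A), m • z = 0 → z = 0)

/-- L1 (the local lemma) in literal form. -/
def L1Stmt : Prop :=
  ∀ {p ℓ : ℕ}, p.Prime → p ≠ 2 → ℓ.Prime → ℓ ≠ p → ∀ W : WeierstrassCurve ℤ,
    (ℓ : ℤ) ∣ W.Δ → ¬ (ℓ : ℤ) ∣ W.c₄ →
    ∀ Q : ((W.map (Int.castRingHom ℚ))⁄Qb).Point, (∀ σ : GQ, σ • Q = Q) → addOrderOf Q = p →
      ∀ A : ValuationSubring Qb, A.LiesOverPrime ℓ → W.InZeroComponentAt A Q →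
        p ∣ ℓ - 1 ∨ p ∣ ℓ + 1

/-- Every prime has a place of `ℚbar` above it. -/
def ExistsOver : Prop := ∀ q : ℕ, q.Prime → ∃ A : ValuationSubring Qb, A.LiesOverPrime q

/-- A torsion class of `J₀(p)` supported in tubes at `2` and at `3` is zero. -/
theorem eq_zero_of_supported_two_three {p : ℕ} [NeZero p] {cZ : Place Qb (FF p)}
    (hInj : XInj p cZ) (hp2 : p ≠ 2) (hp3 : p ≠ 3) {A2 A3 : ValuationSubring Qb}
    (hA2 : A2.LiesOverPrime 2) (hA3 : A3.LiesOverPrime 3)
    (w : JZero p) (k : ℕ) (hk : 0 < k) (hkw : k • w = 0)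
    (hw2 : w ∈ supportedClasses (InTubeZero A2 cZ))
    (hw3 : w ∈ supportedClasses (InTubeZero A3 cZ)) : w = 0 := by
  have h2p : (2 : ℕ) ≠ p := fun h => hp2 h.symm
  have h3p : (3 : ℕ) ≠ p := fun h => hp3 h.symm
  obtain ⟨a, k', hk', rfl⟩ := Nat.exists_eq_two_pow_mul_odd hk.ne'
  have hodd : ¬ 2 ∣ k' := fun h => (Nat.not_even_iff_odd.mpr hk') (even_iff_two_dvd.mpr h)
  -- the `2`-primary part
  have hw2' : 2 ^ a • w = 0 := by
    refine (hInj 2 Nat.prime_two h2p A2 hA2 k' hodd).1 (2 ^ a • w)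
      (AddSubgroup.nsmul_mem _ hw2 _) ?_
    rw [smul_smul, mul_comm]; exact hkw
  refine (hInj 3 Nat.prime_three h3p A3 hA3 (2 ^ a) ?_).1 w hw3 hw2'
  intro h
  have := Nat.Prime.dvd_of_dvd_pow Nat.prime_three h
  omega

/-- **S15 from the contracts (second form: no reduction map at level `p`).** -/
theorem s15_of_contracts_inj {p : ℕ} [NeZero p] (hp : p.Prime)
    (hp' : p ∉ ({2, 3, 5, 7, 13} : Finset ℕ))
    (hdeg : DegOne p) (cZ : Place Qb (FF p))
    (hL1 : L1Stmt) (hex : ExistsOver)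
    (hMod : XMod p cZ) (hHecke : XHecke p cZ) (hInj : XInj p cZ)
    (hC : CuspPkg hdeg cZ) (hG : GlobalEis hdeg cZ)
    (W : WeierstrassCurve ℤ) (hΔ : W.Δ ≠ 0)
    (Q : ((W.map (Int.castRingHom ℚ))⁄Qb).Point)
    (hQfix : ∀ σ : GQ, σ • Q = Q)
    (hQord : addOrderOf Q = p)
    (h2Δ : (2 : ℤ) ∣ W.Δ) (h2c₄ : ¬ (2 : ℤ) ∣ W.c₄)
    (h2 : ∀ A : ValuationSubring Qb, A.LiesOverPrime 2 → ¬ W.InZeroComponentAt A Q)
    (h3Δ : (3 : ℤ) ∣ W.Δ) (h3c₄ : ¬ (3 : ℤ) ∣ W.c₄)
    (h3 : ∀ A : ValuationSubring Qb, A.LiesOverPrime 3 → ¬ W.InZeroComponentAt A Q)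
    {ℓ : ℕ} (hℓ : ℓ.Prime) (hℓp : ℓ ≠ p) (hℓΔ : (ℓ : ℤ) ∣ W.Δ) (hℓc₄ : ¬ (ℓ : ℤ) ∣ W.c₄)
    (A : ValuationSubring Qb) (hA : A.LiesOverPrime ℓ) :
    ¬ W.InZeroComponentAt A Q := by
  intro hQ0
  have hp2 : p ≠ 2 := fun h => hp' (by rw [h]; decide)
  have hp3 : p ≠ 3 := fun h => hp' (by rw [h]; decide)
  have h2p : (2 : ℕ) ≠ p := fun h => hp2 h.symm
  have h3p : (3 : ℕ) ≠ p := fun h => hp3 h.symm
  -- the point `x` of `X₀(p)`
  obtain ⟨x, hxfix, hx⟩ := hMod W hΔ Q hQfix hQord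
    ⟨2, Nat.prime_two, h2p, by exact_mod_cast h2Δ, by exact_mod_cast h2c₄⟩
  obtain ⟨A2, hA2⟩ := hex 2 Nat.prime_two
  obtain ⟨A3, hA3⟩ := hex 3 Nat.prime_three
  -- the global element `t`
  obtain ⟨t, ht, htc, htors⟩ := hG
  set z : JZero p := pointClass hdeg x cZ with hz
  set c : JZero p := pointClass hdeg cZ (cuspInf p) with hc
  obtain ⟨k, hk, hkz⟩ := htors z (smul_pointClass hdeg hxfix hC.fixedZero)
  -- supports at `2` and `3`
  have hs2 : t z ∈ supportedClasses (InTubeZero A2 cZ) := by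
    have hx2 : InTubeZero A2 cZ x :=
      (hx 2 Nat.prime_two h2p (by exact_mod_cast h2Δ) (by exact_mod_cast h2c₄) A2 hA2).1
        (h2 A2 hA2)
    exact heckeSub_mem_supportedClasses (heckeStable_inTubeZero hHecke Nat.prime_two h2p hA2) ht
      (pointClass_mem_supportedClasses hdeg hx2 (Or.inl rfl))
  have hs3 : t z ∈ supportedClasses (InTubeZero A3 cZ) := by
    have hx3 : InTubeZero A3 cZ x :=
      (hx 3 Nat.prime_three h3p (by exact_mod_cast h3Δ) (by exact_mod_cast h3c₄) A3 hA3).1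
        (h3 A3 hA3)
    exact heckeSub_mem_supportedClasses (heckeStable_inTubeZero hHecke Nat.prime_three h3p hA3) ht
      (pointClass_mem_supportedClasses hdeg hx3 (Or.inl rfl))
  have htz : t z = 0 :=
    eq_zero_of_supported_two_three hInj hp2 hp3 hA2 hA3 (t z) k hk hkz hs2 hs3
  -- support at `ℓ`
  have hsℓ : t (z + c) ∈ supportedClasses (InTubeInf (p := p) A) := by
    have hxℓ : InTubeInf A x := (hx ℓ hℓ hℓp hℓΔ hℓc₄ A hA).2 hQ0
    rw [hz, hc, pointClass_add]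
    exact heckeSub_mem_supportedClasses (heckeStable_inTubeInf hHecke hℓ hℓp hA) ht
      (pointClass_mem_supportedClasses hdeg hxℓ (Or.inl rfl))
  have hsc : t c ∈ supportedClasses (InTubeInf (p := p) A) := by
    rw [map_add, htz, zero_add] at hsℓ
    exact hsℓ
  -- `ℓ ∤ p - 1`
  have hℓp1 : ¬ ℓ ∣ p - 1 := by
    intro hdvd
    have hp11 : 11 ≤ p := by
      by_contra hlt
      push Not at hlt
      have h5 : p ≠ 5 := fun h => hp' (by rw [h]; decide)
      have h7 : p ≠ 7 := fun h => hp' (by rw [h]; decide)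
      interval_cases p <;> first | omega | (exact absurd hp (by decide))
    have hle : ℓ ≤ p - 1 := Nat.le_of_dvd (by omega) hdvd
    have hℓ2 : 2 ≤ ℓ := hℓ.two_le
    rcases hL1 hp hp2 hℓ hℓp W hℓΔ hℓc₄ Q hQfix hQord A hA hQ0 with h | h
    · have := Nat.le_of_dvd (by omega) h
      omega
    · have h1 := Nat.le_of_dvd (by omega) h
      have hℓeq : ℓ = p - 1 := by omega
      have hodd : Odd p := hp.odd_of_ne_two hp2
      have heven : 2 ∣ ℓ := by
        obtain ⟨r, hr⟩ := hodd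
        exact ⟨r, by omega⟩
      have := (Nat.prime_dvd_prime_iff_eq Nat.prime_two hℓ).mp heven
      omega
  -- `(p - 1) t c = 0`
  have hkc : (p - 1) • t c = 0 := by
    rw [← map_nsmul, hc, hC.order, map_zero]
  exact htc ((hInj ℓ hℓ hℓp A hA (p - 1) hℓp1).2 (t c) hsc hkc)

end Fermat.Agent.MAZ.Spec.TopInj62
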