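/-
Program MAZ (S15), chapter Spec, helper62: THE POINT SIDE IS CLOSED UP TO `XInj`.

`s15_of_inj_eis` : the literal statement of S15 from the two contracts which are still open:
* `XInj p (cuspZero p)` (helper54: a torsion class of order prime to `q` supported in a tube at `q`
  vanishes), and
* `GlobalEis (degOne p) (cuspZero p)` (the descent side, helper26's table).

Plugged in: `XMod` (`ModAsmFinal2.xMod_of_NP_PP` + `PPFinal82.npDich/ppFixed`, i.e. the complex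
uniformisation chain of helper32/80/3/27/42, the Δ-identity of helper80/86, the local analysis of
helper28/2, the Newton polygon of helper41 and the plane point of helper82), `XHecke`
(`ModPolyFF41.xHecke_final`, helper90/41/71), the cusp package (helper55), L1 (helper28).
-/
import Mathlib
import Fermat.Agent.MAZ.Spec.TopInj62
import Fermat.Agent.MAZ.Point.ModAsmFinal2
import Fermat.Agent.MAZ.Point.PPFinal82
import Fermat.Agent.MAZ.Moduli.ModPolyFF41
import Fermat.Agent.MAZ.Cusp.CuspPkg55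
import Fermat.Agent.MAZ.Local.ZeroComp28
import Fermat.Agent.Lib.FrobeniusExists

set_option autoImplicit false
set_option linter.unusedSectionVars false
set_option linter.style.haveILetI false

open AlgebraicCurve ModularCurve
open WeierstrassCurve WeierstrassCurve.Affine

noncomputable section

namespace Fermat.Agent.MAZ.Spec.XFinal62

open Fermat.Agent.X0 Fermat.Agent.MAZ.Spec.XSpec62 Fermat.Agent.MAZ.Spec.TopInj62
  Fermat.Agent.MAZ.Cusp

theorem l1Stmt : L1Stmt := fun hp hp2 hℓ hℓp W hℓΔ hℓc₄ Q hQfix hQord A hA hQ0 =>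
  Fermat.Agent.MAZ.Local.ZeroComp28.dvd_of_inZeroComponentAt hp hp2 hℓ hℓp W hℓΔ hℓc₄ Q hQfix hQord
    A hA hQ0

theorem existsOver : ExistsOver := fun q hq =>
  Fermat.Agent.Lib.FrobeniusExists.exists_valuationSubring_liesOverPrime q hq

/-- **(X-MOD)**, unconditionally. -/
theorem xMod {p : ℕ} [NeZero p] (hp : p.Prime) (hp2 : p ≠ 2) (cZ : Place Qb (FF p)) : XMod p cZ :=
  Fermat.Agent.MAZ.Point.ModAsmFinal2.xMod_of_NP_PP hp hp2 cZ existsOver
    (Fermat.Agent.MAZ.Point.PPFinal82.npDich hp) (Fermat.Agent.MAZ.Point.PPFinal82.ppFixed hp)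

/-- **(X-HECKE)**, unconditionally. -/
theorem xHecke {p : ℕ} [NeZero p] (hp : p.Prime) {cZ : Place Qb (FF p)} (hcZ : IsCuspZero p cZ) :
    XHecke p cZ :=
  Fermat.Agent.MAZ.Moduli.ModPolyFF41.xHecke_final hp hcZ

/-- **S15 from `XInj` and `GlobalEis`.** -/
theorem s15_of_inj_eis {p : ℕ} [hpF : Fact p.Prime]
    (hp' : p ∉ ({2, 3, 5, 7, 13} : Finset ℕ))
    (hInj : XInj p (CuspPlaces55.cuspZero p))
    (hG : GlobalEis (CuspPkg55.degOne p) (CuspPlaces55.cuspZero p))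
    (W : WeierstrassCurve ℤ) (hΔ : W.Δ ≠ 0)
    (Q : ((W.map (Int.castRingHom ℚ))⁄Qb).Point)
    (hQfix : ∀ σ : GQ, σ • Q = Q)
    (hQord : addOrderOf Q = p)
    (h2Δ : (2 : ℤ) ∣ W.Δ) (h2c₄ : ¬ (2 : ℤ) ∣ W.c₄)
    (h2 : ∀ A : ValuationSubring Qb, A.LiesOverPrime 2 → ¬ W.InZeroComponentAt A Q)
    (h3Δ : (3 : ℤ) ∣ W.Δ) (h3c₄ : ¬ (3 : ℤ) ∣ W.c₄)
    (h3 : ∀ A : ValuationSubring Qb, A.LiesOverPrime 3 → ¬ W.InZeroComponentAt A Q)
    {ℓ : ℕ} (hℓ : ℓ.Prime) (hℓp : ℓ ≠ p) (hℓΔ : (ℓ : ℤ) ∣ W.Δ) (hℓc₄ : ¬ (ℓ : ℤ) ∣ W.c₄)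
    (A : ValuationSubring Qb) (hA : A.LiesOverPrime ℓ) :
    ¬ W.InZeroComponentAt A Q := by
  have hp : p.Prime := hpF.out
  have hp2 : p ≠ 2 := fun h => hp' (by rw [h]; decide)
  have hC := CuspPkg55.cuspPkg p
  exact s15_of_contracts_inj hp hp' (CuspPkg55.degOne p) (CuspPlaces55.cuspZero p) l1Stmt existsOver
    (xMod hp hp2 _) (xHecke hp hC.isCuspZero) hInj hC hG W hΔ Q hQfix hQord h2Δ h2c₄ h2 h3Δ h3c₄ h3
    hℓ hℓp hℓΔ hℓc₄ A hA

end Fermat.Agent.MAZ.Spec.XFinal62
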