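/-
Program MAZ (S15), chapter Spec, helper62: DRY RUN OF THE FINAL WIRING.

`s15_dry` : the literal statement of S15 from exactly the bricks which are still open:
`XHecke`, `XInj` (for `cZ = cuspZero p`), `GlobalEis`, `ModGlobal`, `ModLocNode`, `ZeroCompNsmul`,
`ModLocUnit`, and the modular equation `Φ_p(j, j_p) = 0` in `FF p`.
Everything else (L1, the cusp package, places over primes, Newton polygon, plane point, assembly of
`XMod`, the endgame) is plugged in from landed files.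
-/
import Mathlib
import Fermat.Agent.MAZ.Spec.TopInj62
import Fermat.Agent.MAZ.Point.ModGlue62
import Fermat.Agent.MAZ.Moduli.ModPolyShape41
import Fermat.Agent.MAZ.Cusp.CuspPkg55
import Fermat.Agent.MAZ.Local.ZeroComp28
import Fermat.Agent.Lib.FrobeniusExists

set_option autoImplicit false
set_option linter.unusedSectionVars false
set_option linter.style.haveILetI false

open AlgebraicCurve ModularCurve
open WeierstrassCurve WeierstrassCurve.Affine

noncomputable section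

namespace Fermat.Agent.MAZ.Spec.S15Dry62

open Fermat.Agent.X0 Fermat.Agent.MAZ.Spec.XSpec62 Fermat.Agent.MAZ.Spec.TopInj62
  Fermat.Agent.MAZ.Point.ModAsm62 Fermat.Agent.MAZ.Point.ModGlue62
  Fermat.Agent.MAZ.Moduli.NewtonPhi41 Fermat.Agent.MAZ.Moduli.ModPolyShape41
  Fermat.Agent.MAZ.Cusp

theorem l1Stmt : L1Stmt := fun hp hp2 hℓ hℓp W hℓΔ hℓc₄ Q hQfix hQord A hA hQ0 =>
  Fermat.Agent.MAZ.Local.ZeroComp28.dvd_of_inZeroComponentAt hp hp2 hℓ hℓp W hℓΔ hℓc₄ Q hQfix hQord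
    A hA hQ0

theorem existsOver : ExistsOver := fun q hq =>
  Fermat.Agent.Lib.FrobeniusExists.exists_valuationSubring_liesOverPrime q hq

/-- **S15 from the open bricks.** -/
theorem s15_dry {p : ℕ} [hpF : Fact p.Prime]
    (hp' : p ∉ ({2, 3, 5, 7, 13} : Finset ℕ))
    (hHecke : XHecke p (CuspPlaces55.cuspZero p)) (hInj : XInj p (CuspPlaces55.cuspZero p))
    (hG : GlobalEis (CuspPkg55.degOne p) (CuspPlaces55.cuspZero p))
    (hMG : ModGlobal p) (hNode : ModLocNode) (hNsmul : ZeroCompNsmul) (hUnit : ModLocUnit p)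
    (hrel : ev (modPoly p) (jF p) (jpF p) = 0)
    (W : WeierstrassCurve ℤ) (hΔ : W.Δ ≠ 0)
    (Q : ((W.map (Int.castRingHom ℚ))⁄Qb).Point)
    (hQfix : ∀ σ : GQ, σ • Q = Q)
    (hQord : addOrderOf Q = p)
    (h2Δ : (2 : ℤ) ∣ W.Δ) (h2c₄ : ¬ (2 : ℤ) ∣ W.c₄)
    (h2 : ∀ A : ValuationSubring Qb, A.LiesOverPrime 2 → ¬ W.InZeroComponentAt A Q)
    (h3Δ : (3 : ℤ) ∣ W.Δ) (h3c₄ : ¬ (3 : ℤ) ∣ W.c₄)
    (h3 : ∀ A : ValuationSubring Qb, A.LiesOverPrime 3 → ¬ W.InZeroComponentAt A Q)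
    {ℓ : ℕ} (hℓ : ℓ.Prime) (hℓp : ℓ ≠ p) (hℓΔ : (ℓ : ℤ) ∣ W.Δ) (hℓc₄ : ¬ (ℓ : ℤ) ∣ W.c₄)
    (A : ValuationSubring Qb) (hA : A.LiesOverPrime ℓ) :
    ¬ W.InZeroComponentAt A Q := by
  have hp : p.Prime := hpF.out
  have hS : Shape p (modPoly p) := modPoly_shape hp
  have hMod : XMod p (CuspPlaces55.cuspZero p) :=
    xMod_of_contracts hp _ existsOver hMG hNode hNsmul hUnit
      (npDich_of_shape hp.one_le _ hS hrel) (ppFixed_of_shape hp _ hS hrel)
  exact s15_of_contracts_inj hp hp' (CuspPkg55.degOne p) (CuspPlaces55.cuspZero p) l1Stmt existsOver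
    hMod hHecke hInj (CuspPkg55.cuspPkg p) hG W hΔ Q hQfix hQord h2Δ h2c₄ h2 h3Δ h3c₄ h3 hℓ hℓp hℓΔ
    hℓc₄ A hA

end Fermat.Agent.MAZ.Spec.S15Dry62
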