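/-
Program MAZ (S15), chapter Spec, helper62: THE TOP-LEVEL COMPOSITION.

`s15_of_inj_descent` : the literal statement of S15 from the three inputs which are still open:

* `XInj p (cuspZero p)` (the point side, helper54's wiring of `TubeInj54.xInj_of`);
* `GSpec26.MW p` (= S17 at level `p`: Mordell-Weil for `J₀(p)`);
* `DescentBound p` : the exit of the whole descent chapter (helper26's line 8): for every prime
  `r ∣ p - 1` and every multiplier `m` such that `m • c` (`c = (0) - (∞)`) has exact order `r`,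
  there is a Hecke-stable subgroup `A` of finite index (exponent form) in `J₀(p)(ℚ)` such that the
  `P`-primary parts of the quotients `A / r^k A` have uniformly bounded order, `P` the kernel of
  the Eisenstein character `eisChar` attached to `m • c`.

Everything else is discharged: `XMod`, `XHecke`, the cusp package, L1 (`XFinal62`), the Hecke model
and `CuspEis` (`GModel71`), the commutative algebra end `AlgFin` (`AlgFin79`), and the passage
`EisBound ⟹ GlobalEis` (`GSpec26.globalEis_of_bound`).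
-/
import Mathlib
import Fermat.Agent.MAZ.Spec.XFinal62
import Fermat.Agent.MAZ.Hecke.GModel71
import Fermat.Agent.MAZ.Desc.AlgFin79

set_option autoImplicit false
set_option linter.unusedSectionVars false
set_option linter.style.haveILetI false

open AlgebraicCurve ModularCurve
open WeierstrassCurve WeierstrassCurve.Affine

noncomputable section

namespace Fermat.Agent.MAZ.Spec.S15Top62

open Fermat.Agent.X0 Fermat.Agent.MAZ.Spec Fermat.Agent.MAZ.Spec.XSpec62
  Fermat.Agent.MAZ.Spec.TopInj62 Fermat.Agent.MAZ.Cusp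
  Fermat.Agent.MAZ.Hecke.HeckeComm71 Fermat.Agent.MAZ.Hecke.EisChar71
  Fermat.Agent.MAZ.Hecke.GModel71

/-- **The exit of the descent chapter**, in the vocabulary of `GSpec26` + `GModel71`. -/
def DescentBound (p : ℕ) [hpF : Fact p.Prime] : Prop :=
  letI := heckeSubCommRing p hpF.out
  ∀ (r m : ℕ) (_ : r.Prime) (_ : r ∣ p - 1)
    (hord : addOrderOf (((m : ℕ) : ℤ) •
      pointClass (CuspPkg55.degOne p) (CuspPlaces55.cuspZero p) (cuspInf p)) = r),
    ∃ (A : Submodule ↥(heckeSub p) (JZero p)) (B : ℕ),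
      GSpec26.FiniteIndexIn A (GSpec26.ratPoints (heckeModel hpF.out)) ∧
      GSpec26.EisBound A
        (RingHom.ker (eisChar hpF.out (CuspPkg55.degOne p) (CuspPkg55.cuspPkg p).isCuspZero
          (m : ℤ) r hord)) r B

/-- `GlobalEis` from Mordell-Weil and the descent bound. -/
theorem globalEis_of_descent {p : ℕ} [hpF : Fact p.Prime]
    (hp' : p ∉ ({2, 3, 5, 7, 13} : Finset ℕ)) (hMW : GSpec26.MW p) (hD : DescentBound p) :
    GlobalEis (CuspPkg55.degOne p) (CuspPlaces55.cuspZero p) := by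
  letI := heckeSubCommRing p hpF.out
  obtain ⟨r, m, hr, hrp, hord, hC⟩ :=
    exists_cuspEis hpF.out hp' (CuspPkg55.degOne p) (CuspPkg55.cuspPkg p).isCuspZero
  haveI : Fact r.Prime := ⟨hr⟩
  obtain ⟨A, B, hA, hB⟩ := hD r m hr hrp hord
  exact Fermat.Agent.MAZ.Desc.AlgFin79.globalEis_of_bound (heckeModel hpF.out) hMW
    (CuspPkg55.degOne p) (CuspPlaces55.cuspZero p) r _ m hC A hA B hB

/-- **S15 from `XInj`, Mordell-Weil at level `p` and the descent bound.** -/
theorem s15_of_inj_descent {p : ℕ} [hpF : Fact p.Prime]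
    (hp' : p ∉ ({2, 3, 5, 7, 13} : Finset ℕ))
    (hInj : XInj p (CuspPlaces55.cuspZero p))
    (hMW : GSpec26.MW p) (hD : DescentBound p)
    (W : WeierstrassCurve ℤ) (hΔ : W.Δ ≠ 0)
    (Q : ((W.map (Int.castRingHom ℚ))⁄Qb).Point)
    (hQfix : ∀ σ : GQ, σ • Q = Q)
    (hQord : addOrderOf Q = p)
    (h2Δ : (2 : ℤ) ∣ W.Δ) (h2c₄ : ¬ (2 : ℤ) ∣ W.c₄)
    (h2 : ∀ A : ValuationSubring Qb, A.LiesOverPrime 2 → ¬ W.InZeroComponentAt A Q)
    (h3Δ : (3 : ℤ) ∣ W.Δ) (h3c₄ : ¬ (3 : ℤ) ∣ W.c₄)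
    (h3 : ∀ A : ValuationSubring Qb, A.LiesOverPrime 3 → ¬ W.InZeroComponentAt A Q)
    {ℓ : ℕ} (hℓ : ℓ.Prime) (hℓp : ℓ ≠ p) (hℓΔ : (ℓ : ℤ) ∣ W.Δ) (hℓc₄ : ¬ (ℓ : ℤ) ∣ W.c₄)
    (A : ValuationSubring Qb) (hA : A.LiesOverPrime ℓ) :
    ¬ W.InZeroComponentAt A Q :=
  Fermat.Agent.MAZ.Spec.XFinal62.s15_of_inj_eis hp' hInj (globalEis_of_descent hp' hMW hD)
    W hΔ Q hQfix hQord h2Δ h2c₄ h2 h3Δ h3c₄ h3 hℓ hℓp hℓΔ hℓc₄ A hA

end Fermat.Agent.MAZ.Spec.S15Top62
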