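/-
Program MAZ (S15), chapter Spec, helper62: THE FINAL COMPOSITION (light half).

`S15Top62.s15_of_inj_descent` reduces S15 to `XInj` (landed: `XInj54.xInj`), Mordell-Weil at level
`p` (S17) and `DescentBound p`.  This file fills `DescentBound p` from the exits of the descent
chapter:

* odd `r`   : `LevelDualInstA26.descentBound_odd_tf` (helper26; K-FLAT only at points of infinite
              order, `A` torsion-free) at `T = ↥(heckeSub p)`, `π = eisChar`, with `hev` discharged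
              here (`hev_eisChar`);
* `r = 2`   : `LevelDualInstMA2.descentBound_two_tf` (helper2), the marked twin: the same inputs
              plus the marks at `2` (`MarkStmtInf p`).

The external inputs (S19 at level `p`, K-FLAT, (C2), (P-FIN)_P) stay hypotheses here, in the literal
shapes of their suppliers, so that the closure of this file is light; `S15.lean` cites the suppliers.
-/
import Mathlib
import Fermat.Agent.MAZ.Spec.S15Top62
import Fermat.Agent.MAZ.Red.XInj54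
import Fermat.Agent.MAZ.Desc.LevelDualInstA26
import Fermat.Agent.MAZ.Desc.LevelDualInstMA2

set_option autoImplicit false
set_option linter.unusedSectionVars false
set_option linter.style.haveILetI false

open AlgebraicCurve ModularCurve
open WeierstrassCurve WeierstrassCurve.Affine

noncomputable section

namespace Fermat.Agent.MAZ.Spec.S15Final62

open Fermat.Agent.X0 Fermat.Agent.MAZ.Spec Fermat.Agent.MAZ.Spec.XSpec62
  Fermat.Agent.MAZ.Spec.TopInj62 Fermat.Agent.MAZ.Cusp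
  Fermat.Agent.MAZ.Hecke.HeckeComm71 Fermat.Agent.MAZ.Hecke.EisChar71
  Fermat.Agent.MAZ.Hecke.GModel71 Fermat.Agent.MAZ.Spec.S15Top62
  Fermat.Agent.MAZ.Spec.GSpec26
  Fermat.Agent.MAZ.Desc.KummerInst26 Fermat.Agent.MAZ.Desc.LevelDualInst26
  Fermat.Agent.MAZ.Desc.KummerInstDualA26 Fermat.Agent.MAZ.Desc.LevelDualInstA26
  Fermat.Agent.MAZ.Desc.LevelDualInstMA2

variable {p : ℕ} [hpF : Fact p.Prime]

/-- the Hecke operators `T_ℓ`, `ℓ ≠ p`, in `↥(heckeSub p)`, with the value of the Eisenstein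
character: the hypothesis `hev` of `LevelDualInstA26.descentBound_odd_tf`. -/
theorem hev_eisChar (r m : ℕ)
    (hord : addOrderOf (((m : ℕ) : ℤ) •
      pointClass (CuspPkg55.degOne p) (CuspPlaces55.cuspZero p) (cuspInf p)) = r) :
    letI := heckeSubCommRing p hpF.out
    ∀ ℓ : Nat.Primes, (ℓ : ℕ) ≠ p →
      ∃ t : ↥(heckeSub p), (∀ x : JZero p, t • x = heckeOperatorBar p ℓ x) ∧
        eisChar hpF.out (CuspPkg55.degOne p) (CuspPkg55.cuspPkg p).isCuspZero (m : ℤ) r hord t =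
          ((ℓ : ℕ) : ZMod r) + 1 := by
  letI := heckeSubCommRing p hpF.out
  intro ℓ hℓ
  exact ⟨⟨heckeOperatorBar p ℓ, heckeOperatorBar_mem_heckeSub ℓ hℓ⟩, fun x => rfl,
    eisChar_heckeOperatorBar hpF.out (CuspPkg55.degOne p) (CuspPkg55.cuspPkg p).isCuspZero
      (m : ℤ) r hord ℓ hℓ⟩

/-- **The inputs of the descent at a prime `r`** which are external to the chapter: S19 at
level `p` (FFJ), K-FLAT for the rational points of infinite order, (C2), and (P-FIN)_P (with `A`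
torsion-free) for every Eisenstein character. -/
structure DescInputs (p r : ℕ) [hpF : Fact p.Prime] [Fact r.Prime] (𝔄 : ValuationSubring Qb) :
    Prop where
  /-- S19 at level `p` -/
  s19 : S19At p r
  /-- K-FLAT -/
  kflat : KFlatInf p r
  /-- (C2) -/
  c2 : C2Stmt p {p, r}
  /-- (P-FIN)_P -/
  pfin : letI := heckeSubCommRing p hpF.out
    ∀ π : ↥(heckeSub p) →+* ZMod r,
      (∀ ℓ : Nat.Primes, (ℓ : ℕ) ≠ p →
        ∃ t : ↥(heckeSub p), (∀ x : JZero p, t • x = heckeOperatorBar p ℓ x) ∧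
          π t = ((ℓ : ℕ) : ZMod r) + 1) →
      ∃ A : Submodule ↥(heckeSub p) (JZero p), FiniteIndexIn A (ratPoints (heckeModel hpF.out)) ∧
        (∀ z ∈ A, ∀ n : ℕ, n ≠ 0 → n • z = 0 → z = 0) ∧ ∀ k : ℕ, ∃ e : ↥(heckeSub p),
          (∀ x ∈ primarySet (RingHom.ker π)
            (↥A ⧸ (Ideal.span {((r : ℕ) : ↥(heckeSub p)) ^ k} • ⊤ : Submodule ↥(heckeSub p) ↥A)),
            e • x = x) ∧
          ∀ z ∈ A, ∃ y : JZero p, (∀ σ ∈ 𝔄.inertiaSubgroupIn ℚ, σ • y = y) ∧ r ^ k • y = e • z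

/-- the body of `DescentBound p` at `(r, m, hord)`. -/
def BoundAt (p : ℕ) [hpF : Fact p.Prime] (r m : ℕ)
    (hord : addOrderOf (((m : ℕ) : ℤ) •
      pointClass (CuspPkg55.degOne p) (CuspPlaces55.cuspZero p) (cuspInf p)) = r) : Prop :=
  letI := heckeSubCommRing p hpF.out
  ∃ (A : Submodule ↥(heckeSub p) (JZero p)) (B : ℕ),
    FiniteIndexIn A (ratPoints (heckeModel hpF.out)) ∧
    EisBound A
      (RingHom.ker (eisChar hpF.out (CuspPkg55.degOne p) (CuspPkg55.cuspPkg p).isCuspZero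
        (m : ℤ) r hord)) r B

/-- **The descent bound at an odd prime `r ∣ p - 1`.** -/
theorem boundAt_odd (hMW : MW p) {r m : ℕ} [Fact r.Prime] (hr2 : r ≠ 2) (hrp : r ∣ p - 1)
    (hord : addOrderOf (((m : ℕ) : ℤ) •
      pointClass (CuspPkg55.degOne p) (CuspPlaces55.cuspZero p) (cuspInf p)) = r)
    {𝔄 : ValuationSubring Qb} (h𝔄 : 𝔄.LiesOverPrime p) (h : DescInputs p r 𝔄) :
    BoundAt p r m hord := by
  letI := heckeSubCommRing p hpF.out
  have hpr : p ≠ r := (ne_of_dvd_pred hpF.out hrp).symm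
  exact descentBound_odd_tf 𝔄 (heckeModel hpF.out) hMW hpF.out hr2 hpr h𝔄 _ (hev_eisChar r m hord)
    h.s19 h.kflat h.c2 (h.pfin _ (hev_eisChar r m hord))

/-- **The descent bound at `r = 2`** (when `2 ∣ p - 1`, i.e. always): the same inputs plus the marks
at `2`. -/
theorem boundAt_two (hMW : MW p) {m : ℕ} (hrp : 2 ∣ p - 1)
    (hord : addOrderOf (((m : ℕ) : ℤ) •
      pointClass (CuspPkg55.degOne p) (CuspPlaces55.cuspZero p) (cuspInf p)) = 2)
    {𝔄 : ValuationSubring Qb} (h𝔄 : 𝔄.LiesOverPrime p) (h : DescInputs p 2 𝔄)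
    (hMark : MarkStmtInf p) :
    BoundAt p 2 m hord := by
  letI := heckeSubCommRing p hpF.out
  have hp2 : p ≠ 2 := (ne_of_dvd_pred hpF.out hrp).symm
  exact descentBound_two_tf 𝔄 (heckeModel hpF.out) hMW hpF.out hp2 h𝔄 _ (hev_eisChar 2 m hord)
    h.s19 h.kflat hMark h.c2 (h.pfin _ (hev_eisChar 2 m hord))

/-- **`DescentBound p` from the two cases.** -/
theorem descentBound_of_cases
    (hodd : ∀ (r m : ℕ) (_ : r.Prime) (_ : r ≠ 2) (_ : r ∣ p - 1)
      (hord : addOrderOf (((m : ℕ) : ℤ) •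
        pointClass (CuspPkg55.degOne p) (CuspPlaces55.cuspZero p) (cuspInf p)) = r),
      BoundAt p r m hord)
    (htwo : ∀ (m : ℕ) (_ : 2 ∣ p - 1)
      (hord : addOrderOf (((m : ℕ) : ℤ) •
        pointClass (CuspPkg55.degOne p) (CuspPlaces55.cuspZero p) (cuspInf p)) = 2),
      BoundAt p 2 m hord) :
    DescentBound p := by
  intro r m hr hrp hord
  by_cases hr2 : r = 2
  · subst hr2
    exact htwo m hrp hord
  · exact hodd r m hr hr2 hrp hord

/-- **S15 from the two cases of the descent bound** (`XInj` discharged). -/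
theorem s15_of_cases (hp' : p ∉ ({2, 3, 5, 7, 13} : Finset ℕ)) (hMW : MW p)
    (hodd : ∀ (r m : ℕ) (_ : r.Prime) (_ : r ≠ 2) (_ : r ∣ p - 1)
      (hord : addOrderOf (((m : ℕ) : ℤ) •
        pointClass (CuspPkg55.degOne p) (CuspPlaces55.cuspZero p) (cuspInf p)) = r),
      BoundAt p r m hord)
    (htwo : ∀ (m : ℕ) (_ : 2 ∣ p - 1)
      (hord : addOrderOf (((m : ℕ) : ℤ) •
        pointClass (CuspPkg55.degOne p) (CuspPlaces55.cuspZero p) (cuspInf p)) = 2),
      BoundAt p 2 m hord)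
    (W : WeierstrassCurve ℤ) (hΔ : W.Δ ≠ 0)
    (Q : ((W.map (Int.castRingHom ℚ))⁄Qb).Point)
    (hQfix : ∀ σ : GQ, σ • Q = Q)
    (hQord : addOrderOf Q = p)
    (h2Δ : (2 : ℤ) ∣ W.Δ) (h2c₄ : ¬ (2 : ℤ) ∣ W.c₄)
    (h2 : ∀ A : ValuationSubring Qb, A.LiesOverPrime 2 → ¬ W.InZeroComponentAt A Q)
    (h3Δ : (3 : ℤ) ∣ W.Δ) (h3c₄ : ¬ (3 : ℤ) ∣ W.c₄)
    (h3 : ∀ A : ValuationSubring Qb, A.LiesOverPrime 3 → ¬ W.InZeroComponentAt A Q)
    {ℓ : ℕ} (hℓ : ℓ.Prime) (hℓp : ℓ ≠ p) (hℓΔ : (ℓ : ℤ) ∣ W.Δ) (hℓc₄ : ¬ (ℓ : ℤ) ∣ W.c₄)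
    (A : ValuationSubring Qb) (hA : A.LiesOverPrime ℓ) :
    ¬ W.InZeroComponentAt A Q :=
  s15_of_inj_descent hp' Fermat.Agent.MAZ.Red.XInj54.xInj hMW (descentBound_of_cases hodd htwo)
    W hΔ Q hQfix hQord h2Δ h2c₄ h2 h3Δ h3c₄ h3 hℓ hℓp hℓΔ hℓc₄ A hA

end Fermat.Agent.MAZ.Spec.S15Final62
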