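/-
Program MAZ (S15), chapter Spec, helper62: THE FINAL COMPOSITION (heavy half, closed suppliers).

Every input of the descent chapter which is an unconditional theorem on main is plugged in here, at
level `p` prime, `T = ↥(heckeSub p)`:

* `mw`        : Mordell-Weil at level `p`            := `Fermat.Agent.S17.result`;
* `s19At`     : S19 at level `p`, residue char. `r`  := `Fermat.Agent.S19.result`
                (`ContractAdapters26.s19At_of_frozen`);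
* `c2Stmt`    : (C2)                                 := `EisTransferFinal85.exists_eis_index`;
* `hdivAll`   : divisibility of `J₀(p)(ℚ̄)`           := `JZeroDiv30.jzero_nsmul_surjective`;
* `hfinAll`   : finiteness of the torsion            := `FiniteTorsion15.finite_setOf_nsmul_eq_zero`;
* `htame`     : tame inertia is procyclic            := `TameCyclic11.exists_inertia_generator`;
* `hNUM`      : (NUM')                               := `InertiaDiv4.inertiaDiv` at `(p, p, 𝔄)`;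
* `exists_over` : a valuation subring of `ℚ̄` over `p` := `FrobeniusExists`.

Exits: **`pfin_of_level'`**, **`pfin_of_level_marked`** : the hypothesis `hPF` of
`LevelDualInstA26.descentBound_odd_tf` (resp. its twin at `r = 2`) from the level inputs of chapter
(PT) at the levels `k ≥ 1` (`PFinFinalTF62`); **`descInputs`**, **`descInputs_marked`** :
`S15Final62.DescInputs` from the two inputs which are external to this file: K-FLAT at the points of
infinite order and the level inputs of (PT); and **`s15_of_open`** : the literal statement S15 from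
these inputs (K-FLAT, (PT) at odd `r`, (PT) with marks at `r = 2`, the marks at `2`).
-/
import Mathlib
import Fermat.Agent.MAZ.Spec.S15Final62
import Fermat.Agent.MAZ.Desc.PFinFinalTF62
import Fermat.Agent.MAZ.Desc.ContractAdapters26
import Fermat.Agent.MAZ.Hecke.EisTransferFinal85
import Fermat.Agent.MAZ.Desc.TameCyclic11
import Fermat.Agent.MAZ.Desc.JZeroDiv30
import Fermat.Agent.ES.KUM.FiniteTorsion15
import Fermat.Agent.ES.N34.InertiaDiv4
import Fermat.Agent.Lib.FrobeniusExists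
import Fermat.Agent.S17
import Fermat.Agent.S19

set_option autoImplicit false
set_option linter.unusedSectionVars false
set_option linter.unusedVariables false
set_option linter.style.haveILetI false

open AlgebraicCurve ModularCurve

noncomputable section

namespace Fermat.Agent.MAZ.Spec.S15Sup62

open Fermat.Agent.X0 Fermat.Agent.MAZ.Spec Fermat.Agent.MAZ.Spec.XSpec62
  Fermat.Agent.MAZ.Hecke.HeckeComm71 Fermat.Agent.MAZ.Hecke.GModel71
  Fermat.Agent.MAZ.Spec.GSpec26 Fermat.Agent.MAZ.Spec.S15Final62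
  Fermat.Agent.MAZ.Desc.KummerInst26 Fermat.Agent.MAZ.Desc.LevelDualInst26
  Fermat.Agent.MAZ.Desc.KummerInstDualA26
  Fermat.Agent.MAZ.Desc.PTExpInst90 Fermat.Agent.MAZ.Desc.PTExpInstB90
  Fermat.Agent.MAZ.Desc.PTExpInstM90

variable {p : ℕ} [hpF : Fact p.Prime]

/-! ### 1. The closed suppliers -/

theorem five_le (hp' : p ∉ ({2, 3, 5, 7, 13} : Finset ℕ)) : 5 ≤ p := by
  have hp : p.Prime := hpF.out
  by_contra h
  have h5 : p < 5 := Nat.lt_of_not_le h
  interval_cases p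
  · exact Nat.not_prime_zero hp
  · exact Nat.not_prime_one hp
  · exact hp' (by decide)
  · exact hp' (by decide)
  · exact (by decide : ¬ Nat.Prime 4) hp

/-- **Mordell-Weil at level `p`** (S17). -/
theorem mw (hp' : p ∉ ({2, 3, 5, 7, 13} : Finset ℕ)) : MW p :=
  Fermat.Agent.S17.result p hpF.out (five_le hp')

theorem not_dvd_of_dvd_pred {r : ℕ} (hr : r.Prime) (hrp : r ∣ p - 1) : ¬ r ∣ p := fun h =>
  ne_of_dvd_pred hpF.out hrp ((Nat.prime_dvd_prime_iff_eq hr hpF.out).1 h)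

/-- **S19 at level `p`** (the frozen statement S19 at `N = p`, `ℓ = r`). -/
theorem s19At {r : ℕ} [hr : Fact r.Prime] (hrp : ¬ r ∣ p) : S19At p r :=
  Fermat.Agent.MAZ.Desc.ContractAdapters26.s19At_of_frozen
    (fun k => Fermat.Agent.S19.result p r hrp k)

/-- **(C2)** (`EisTransferFinal85.exists_eis_index`). -/
theorem c2Stmt (r : ℕ) : C2Stmt p {p, r} :=
  Fermat.Agent.MAZ.Hecke.EisTransferFinal85.exists_eis_index p {p, r} (fun q hq hqp => by
    rw [(Nat.prime_dvd_prime_iff_eq hq hpF.out).1 hqp]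
    exact Finset.mem_insert_self p {r})

/-- divisibility of `J₀(p)(ℚ̄)`. -/
theorem hdivAll : ∀ n : ℕ, n ≠ 0 → ∀ z : JZero p, ∃ y : JZero p, n • y = z :=
  fun n hn z => Fermat.Agent.MAZ.Desc.JZeroDiv30.jzero_nsmul_surjective p n hn z

/-- finiteness of the torsion of `J₀(p)(ℚ̄)`. -/
theorem hfinAll : ∀ n : ℕ, n ≠ 0 → {y : JZero p | n • y = 0}.Finite := fun n hn =>
  haveI : NeZero n := ⟨hn⟩
  Fermat.Agent.ES.KUM.FiniteTorsion15.finite_setOf_nsmul_eq_zero p n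

/-- tame inertia is procyclic. -/
theorem htame {𝔄 : ValuationSubring Qb} (h𝔄 : 𝔄.LiesOverPrime p) :
    Fermat.Agent.MAZ.Desc.HCyc48.TameStmt p 𝔄 :=
  fun L _ _ U _ _ hU f hf =>
    Fermat.Agent.MAZ.Desc.TameCyclic11.exists_inertia_generator (A := 𝔄) (L := L) hpF.out h𝔄 hU f
      hf

/-- **(NUM')** at `(p, p, 𝔄)`. -/
theorem hNUM {𝔄 : ValuationSubring Qb} (h𝔄 : 𝔄.LiesOverPrime p) :
    ∀ τ ∈ 𝔄.inertiaSubgroupIn ℚ, ∀ m : ℕ, ¬ p ∣ m → ∀ y : JZero p,
      τ • (m • y) = m • y → τ • τ • y + y = τ • y + τ • y := by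
  have hp : p.Prime := hpF.out
  have hp2 : ¬ p ^ 2 ∣ p := by
    intro h
    have h1 := Nat.le_of_dvd hp.pos h
    have h2 := hp.two_le
    nlinarith
  exact fun τ hτ m hm y hy =>
    Fermat.Agent.ES.N34.InertiaDiv4.inertiaDiv p p hp dvd_rfl hp2 𝔄 h𝔄 τ hτ m hm y hy

/-- a valuation subring of `ℚ̄` over `p`. -/
theorem exists_over : ∃ 𝔄 : ValuationSubring Qb, 𝔄.LiesOverPrime p :=
  Fermat.Agent.Lib.FrobeniusExists.exists_valuationSubring_liesOverPrime p hpF.out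

/-! ### 2. (P-FIN)_P from the level inputs of (PT) -/

/-- **(P-FIN)_P with `A` torsion-free, from the level inputs of (PT) at the levels `k ≥ 1`**
(`ToricLevelInput'`, the form on the type `primaryPart (ker π) (Mk p r k)`). -/
theorem pfin_of_level' (hMW : MW p) {r : ℕ} [Fact r.Prime] (hrp : r ≠ p)
    {𝔄 : ValuationSubring Qb} (h𝔄 : 𝔄.LiesOverPrime p) :
    letI := heckeSubCommRing p hpF.out
    ∀ (π : ↥(heckeSub p) →+* ZMod r) (n' : ℕ), 0 < n' →
      (∀ k : ℕ, 1 ≤ k → ToricLevelInput' r (heckeModel hpF.out) π 𝔄 n' k) →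
      ∃ A : Submodule ↥(heckeSub p) (JZero p), FiniteIndexIn A (ratPoints (heckeModel hpF.out)) ∧
        (∀ z ∈ A, ∀ n : ℕ, n ≠ 0 → n • z = 0 → z = 0) ∧ ∀ k : ℕ, ∃ e : ↥(heckeSub p),
          (∀ x ∈ primarySet (RingHom.ker π)
            (↥A ⧸ (Ideal.span {((r : ℕ) : ↥(heckeSub p)) ^ k} • ⊤ : Submodule ↥(heckeSub p) ↥A)),
            e • x = x) ∧
          ∀ z ∈ A, ∃ y : JZero p, (∀ σ ∈ 𝔄.inertiaSubgroupIn ℚ, σ • y = y) ∧
            r ^ k • y = e • z := by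
  letI := heckeSubCommRing p hpF.out
  intro π n' hn' hlevel
  exact Fermat.Agent.MAZ.Desc.PFinFinalTF62.pfinP_tf_of_inputs_pos' r (heckeModel hpF.out) hMW
    hpF.out hrp π 𝔄 hdivAll hfinAll (htame h𝔄) (hNUM h𝔄) n' hn' hlevel

/-- the same from the level inputs stated on `J₀(p)` (`ToricLevelInput`). -/
theorem pfin_of_level (hMW : MW p) {r : ℕ} [Fact r.Prime] (hrp : r ≠ p)
    {𝔄 : ValuationSubring Qb} (h𝔄 : 𝔄.LiesOverPrime p) :
    letI := heckeSubCommRing p hpF.out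
    ∀ (π : ↥(heckeSub p) →+* ZMod r) (n' : ℕ), 0 < n' →
      (∀ k : ℕ, 1 ≤ k → ToricLevelInput r (heckeModel hpF.out) π 𝔄 n' k) →
      ∃ A : Submodule ↥(heckeSub p) (JZero p), FiniteIndexIn A (ratPoints (heckeModel hpF.out)) ∧
        (∀ z ∈ A, ∀ n : ℕ, n ≠ 0 → n • z = 0 → z = 0) ∧ ∀ k : ℕ, ∃ e : ↥(heckeSub p),
          (∀ x ∈ primarySet (RingHom.ker π)
            (↥A ⧸ (Ideal.span {((r : ℕ) : ↥(heckeSub p)) ^ k} • ⊤ : Submodule ↥(heckeSub p) ↥A)),
            e • x = x) ∧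
          ∀ z ∈ A, ∃ y : JZero p, (∀ σ ∈ 𝔄.inertiaSubgroupIn ℚ, σ • y = y) ∧
            r ^ k • y = e • z := by
  letI := heckeSubCommRing p hpF.out
  intro π n' hn' hlevel
  exact Fermat.Agent.MAZ.Desc.PFinFinalTF62.pfinP_tf_of_inputs_pos r (heckeModel hpF.out) hMW
    hpF.out hrp π 𝔄 hdivAll hfinAll (htame h𝔄) (hNUM h𝔄) n' hn' hlevel

/-- the same from the MARKED level inputs (`ToricLevelInputM'`; any prime `r ≠ p`, e.g. `r = 2`). -/
theorem pfin_of_level_marked (hMW : MW p) {r : ℕ} [Fact r.Prime] (hrp : r ≠ p)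
    {𝔄 : ValuationSubring Qb} (h𝔄 : 𝔄.LiesOverPrime p) :
    letI := heckeSubCommRing p hpF.out
    ∀ (π : ↥(heckeSub p) →+* ZMod r) (n' : ℕ), 0 < n' →
      (∀ k : ℕ, 1 ≤ k → ToricLevelInputM' r (heckeModel hpF.out) π 𝔄 n' k) →
      ∃ A : Submodule ↥(heckeSub p) (JZero p), FiniteIndexIn A (ratPoints (heckeModel hpF.out)) ∧
        (∀ z ∈ A, ∀ n : ℕ, n ≠ 0 → n • z = 0 → z = 0) ∧ ∀ k : ℕ, ∃ e : ↥(heckeSub p),
          (∀ x ∈ primarySet (RingHom.ker π)
            (↥A ⧸ (Ideal.span {((r : ℕ) : ↥(heckeSub p)) ^ k} • ⊤ : Submodule ↥(heckeSub p) ↥A)),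
            e • x = x) ∧
          ∀ z ∈ A, ∃ y : JZero p, (∀ σ ∈ 𝔄.inertiaSubgroupIn ℚ, σ • y = y) ∧
            r ^ k • y = e • z := by
  letI := heckeSubCommRing p hpF.out
  intro π n' hn' hlevel
  exact Fermat.Agent.MAZ.Desc.PFinFinalTF62.pfinP_tf_of_inputs_marked_pos r (heckeModel hpF.out)
    hMW hpF.out hrp π 𝔄 hdivAll hfinAll (htame h𝔄) (hNUM h𝔄) n' hn' hlevel

/-! ### 3. The inputs of the descent -/

/-- **`S15Final62.DescInputs` from the two inputs which are external to this file**: K-FLAT at the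
points of infinite order (exit of chapter K-FLAT, in the literal shape of
`KummerInstDualA26.kFlatInf_of_flatAtR`) and the level inputs of chapter (PT) at the levels `k ≥ 1`,
for every `π` with the Eisenstein values on the Hecke operators. -/
theorem descInputs (hp' : p ∉ ({2, 3, 5, 7, 13} : Finset ℕ)) {r : ℕ} [hr : Fact r.Prime]
    (hrp : r ∣ p - 1) {𝔄 : ValuationSubring Qb} (h𝔄 : 𝔄.LiesOverPrime p)
    (hKF : ∀ (k : ℕ) (y : JZero p), (∀ σ : GQ, σ • ((r ^ k) • y) = (r ^ k) • y) →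
      (∀ n : ℕ, n • ((r ^ k) • y) = 0 → n = 0) → FlatAtR r k (fun σ : GQ => σ • y - y))
    (hPT : letI := heckeSubCommRing p hpF.out
      ∀ π : ↥(heckeSub p) →+* ZMod r,
        (∀ ℓ : Nat.Primes, (ℓ : ℕ) ≠ p →
          ∃ t : ↥(heckeSub p), (∀ x : JZero p, t • x = heckeOperatorBar p ℓ x) ∧
            π t = ((ℓ : ℕ) : ZMod r) + 1) →
        ∃ n' : ℕ, 0 < n' ∧
          ∀ k : ℕ, 1 ≤ k → ToricLevelInput' r (heckeModel hpF.out) π 𝔄 n' k) :
    DescInputs p r 𝔄 := by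
  letI := heckeSubCommRing p hpF.out
  refine ⟨s19At (not_dvd_of_dvd_pred hr.out hrp), kFlatInf_of_flatAtR hKF, c2Stmt r,
    fun π hev => ?_⟩
  have hex := hPT π hev
  obtain ⟨n', hn', hlevel⟩ := hex
  exact pfin_of_level' (mw hp') (ne_of_dvd_pred hpF.out hrp) h𝔄 π n' hn' hlevel

/-- the same from the MARKED level inputs of (PT) (used at `r = 2`). -/
theorem descInputs_marked (hp' : p ∉ ({2, 3, 5, 7, 13} : Finset ℕ)) {r : ℕ} [hr : Fact r.Prime]
    (hrp : r ∣ p - 1) {𝔄 : ValuationSubring Qb} (h𝔄 : 𝔄.LiesOverPrime p)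
    (hKF : ∀ (k : ℕ) (y : JZero p), (∀ σ : GQ, σ • ((r ^ k) • y) = (r ^ k) • y) →
      (∀ n : ℕ, n • ((r ^ k) • y) = 0 → n = 0) → FlatAtR r k (fun σ : GQ => σ • y - y))
    (hPT : letI := heckeSubCommRing p hpF.out
      ∀ π : ↥(heckeSub p) →+* ZMod r,
        (∀ ℓ : Nat.Primes, (ℓ : ℕ) ≠ p →
          ∃ t : ↥(heckeSub p), (∀ x : JZero p, t • x = heckeOperatorBar p ℓ x) ∧
            π t = ((ℓ : ℕ) : ZMod r) + 1) →
        ∃ n' : ℕ, 0 < n' ∧
          ∀ k : ℕ, 1 ≤ k → ToricLevelInputM' r (heckeModel hpF.out) π 𝔄 n' k) :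
    DescInputs p r 𝔄 := by
  letI := heckeSubCommRing p hpF.out
  refine ⟨s19At (not_dvd_of_dvd_pred hr.out hrp), kFlatInf_of_flatAtR hKF, c2Stmt r,
    fun π hev => ?_⟩
  have hex := hPT π hev
  obtain ⟨n', hn', hlevel⟩ := hex
  exact pfin_of_level_marked (mw hp') (ne_of_dvd_pred hpF.out hrp) h𝔄 π n' hn' hlevel

/-! ### 4. S15 from the inputs which are external to this file -/

open WeierstrassCurve WeierstrassCurve.Affine in
/-- **S15 from: K-FLAT (every prime `r ∣ p - 1`, points of infinite order), the level inputs of (PT)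
at the odd primes `r ∣ p - 1`, the marked level inputs of (PT) at `r = 2`, and the marks at `2`.**
Everything else (X-side, S17, S19, (C2), (NUM'), tame inertia, divisibility, finiteness of torsion)
is discharged. -/
theorem s15_of_open (hp' : p ∉ ({2, 3, 5, 7, 13} : Finset ℕ))
    (hKF : ∀ (r : ℕ) [Fact r.Prime], r ∣ p - 1 →
      ∀ (k : ℕ) (y : JZero p), (∀ σ : GQ, σ • ((r ^ k) • y) = (r ^ k) • y) →
        (∀ n : ℕ, n • ((r ^ k) • y) = 0 → n = 0) → FlatAtR r k (fun σ : GQ => σ • y - y))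
    (hPTodd : letI := heckeSubCommRing p hpF.out
      ∀ (r : ℕ) [Fact r.Prime], r ≠ 2 → r ∣ p - 1 →
      ∀ 𝔄 : ValuationSubring Qb, 𝔄.LiesOverPrime p →
      ∀ π : ↥(heckeSub p) →+* ZMod r,
        (∀ ℓ : Nat.Primes, (ℓ : ℕ) ≠ p →
          ∃ t : ↥(heckeSub p), (∀ x : JZero p, t • x = heckeOperatorBar p ℓ x) ∧
            π t = ((ℓ : ℕ) : ZMod r) + 1) →
        ∃ n' : ℕ, 0 < n' ∧
          ∀ k : ℕ, 1 ≤ k → ToricLevelInput' r (heckeModel hpF.out) π 𝔄 n' k)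
    (hPTtwo : letI := heckeSubCommRing p hpF.out
      ∀ 𝔄 : ValuationSubring Qb, 𝔄.LiesOverPrime p →
      ∀ π : ↥(heckeSub p) →+* ZMod 2,
        (∀ ℓ : Nat.Primes, (ℓ : ℕ) ≠ p →
          ∃ t : ↥(heckeSub p), (∀ x : JZero p, t • x = heckeOperatorBar p ℓ x) ∧
            π t = ((ℓ : ℕ) : ZMod 2) + 1) →
        ∃ n' : ℕ, 0 < n' ∧
          ∀ k : ℕ, 1 ≤ k → ToricLevelInputM' 2 (heckeModel hpF.out) π 𝔄 n' k)
    (hMark : Fermat.Agent.MAZ.Desc.LevelDualInstMA2.MarkStmtInf p)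
    (W : WeierstrassCurve ℤ) (hΔ : W.Δ ≠ 0)
    (Q : ((W.map (Int.castRingHom ℚ))⁄Qb).Point)
    (hQfix : ∀ σ : GQ, σ • Q = Q)
    (hQord : addOrderOf Q = p)
    (h2Δ : (2 : ℤ) ∣ W.Δ) (h2c₄ : ¬ (2 : ℤ) ∣ W.c₄)
    (h2 : ∀ A : ValuationSubring Qb, A.LiesOverPrime 2 → ¬ W.InZeroComponentAt A Q)
    (h3Δ : (3 : ℤ) ∣ W.Δ) (h3c₄ : ¬ (3 : ℤ) ∣ W.c₄)
    (h3 : ∀ A : ValuationSubring Qb, A.LiesOverPrime 3 → ¬ W.InZeroComponentAt A Q)
    {ℓ : ℕ} (hℓ : ℓ.Prime) (hℓp : ℓ ≠ p) (hℓΔ : (ℓ : ℤ) ∣ W.Δ) (hℓc₄ : ¬ (ℓ : ℤ) ∣ W.c₄)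
    (A : ValuationSubring Qb) (hA : A.LiesOverPrime ℓ) :
    ¬ W.InZeroComponentAt A Q := by
  letI := heckeSubCommRing p hpF.out
  have hex := exists_over (p := p)
  obtain ⟨𝔄, h𝔄⟩ := hex
  refine s15_of_cases hp' (mw hp') (fun r m hr hr2 hrp hord => ?_) (fun m hrp hord => ?_)
    W hΔ Q hQfix hQord h2Δ h2c₄ h2 h3Δ h3c₄ h3 hℓ hℓp hℓΔ hℓc₄ A hA
  · haveI : Fact r.Prime := ⟨hr⟩
    exact boundAt_odd (mw hp') hr2 hrp hord h𝔄
      (descInputs hp' hrp h𝔄 (hKF r hrp) (hPTodd r hr2 hrp 𝔄 h𝔄))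
  · exact boundAt_two (mw hp') hrp hord h𝔄
      (descInputs_marked hp' hrp h𝔄 (hKF 2 hrp) (hPTtwo 𝔄 h𝔄)) hMark

end Fermat.Agent.MAZ.Spec.S15Sup62
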