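/-
Program MAZ (S15), chapter Spec, helper62: THE FINAL COMPOSITION (last plugs).

`S15Sup62.s15_of_open` has four arguments.  Three of them are theorems on main and are plugged here:

* `hPTodd` : `PTExpInstOdd90.exists_toricLevelInput_odd` (helper90), with (C1) :=
             `EisTransferFinal85.exists_eis_transfer_pair`, S19 at level `p`, K-UNR := `KUnrInst3.kUnr`;
* `hPTtwo` : `PTExpInstTwo90.exists_toricLevelInputM_two` (helper90), with the good marked module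
             structure on `J₀(p)[2^k]` from the marks at `2`;
* `hMark`  : `MarkStmt37.markStmt_two` (helper37) through `LevelDualInstMA2.markStmtInf_of_markStmt`.

and `s15_of_kflat` : the literal statement S15 from the exit of chapter K-FLAT at every prime
`r ∣ p - 1`.  The fourth is

* `hKF`    : `KFlatCurve37.flatAtR_kum` (helper37),

which gives **`s15`** : THE LITERAL STATEMENT S15 (with `[Fact p.Prime]`), unconditionally.
-/
import Mathlib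
import Fermat.Agent.MAZ.Spec.S15Sup62
import Fermat.Agent.MAZ.Desc.PTExpInstOdd90
import Fermat.Agent.MAZ.Desc.KUnrInst3
import Fermat.Agent.MAZ.Flat.MarkStmt37
import Fermat.Agent.MAZ.Flat.KFlatCurve37

set_option autoImplicit false
set_option linter.unusedSectionVars false
set_option linter.unusedVariables false
set_option linter.style.haveILetI false

open AlgebraicCurve ModularCurve

noncomputable section

namespace Fermat.Agent.MAZ.Spec.S15Plug62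

open Fermat.Agent.X0 Fermat.Agent.MAZ.Spec Fermat.Agent.MAZ.Spec.XSpec62
  Fermat.Agent.MAZ.Hecke.HeckeComm71 Fermat.Agent.MAZ.Hecke.GModel71
  Fermat.Agent.MAZ.Spec.GSpec26 Fermat.Agent.MAZ.Spec.S15Final62 Fermat.Agent.MAZ.Spec.S15Sup62
  Fermat.Agent.MAZ.Desc.KummerInst26
  Fermat.Agent.MAZ.Desc.PTExpInst90 Fermat.Agent.MAZ.Desc.PTExpInstB90
  Fermat.Agent.MAZ.Desc.PTExpInstM90

attribute [local instance] dmaMk modMk

variable {p : ℕ} [hpF : Fact p.Prime]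

/-- the marks at `2`, at an odd prime level. -/
theorem markStmtInf (hp2 : p ≠ 2) : Fermat.Agent.MAZ.Desc.LevelDualInstMA2.MarkStmtInf p := by
  have h2 : ¬ 2 ∣ p := fun h =>
    hp2 ((Nat.prime_dvd_prime_iff_eq Nat.prime_two hpF.out).mp h).symm
  refine Fermat.Agent.MAZ.Desc.LevelDualInstMA2.markStmtInf_of_markStmt ?_
  intro k hk
  exact Fermat.Agent.MAZ.Flat.MarkStmt37.markStmt_two p h2 k hk

/-- **the level inputs of (PT) at an odd prime `r ∣ p - 1`** (the argument `hPTodd` of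
`S15Sup62.s15_of_open`). -/
theorem hPTodd :
    letI := heckeSubCommRing p hpF.out
    ∀ (r : ℕ) [Fact r.Prime], r ≠ 2 → r ∣ p - 1 →
    ∀ 𝔄 : ValuationSubring Qb, 𝔄.LiesOverPrime p →
    ∀ π : ↥(heckeSub p) →+* ZMod r,
      (∀ ℓ : Nat.Primes, (ℓ : ℕ) ≠ p →
        ∃ t : ↥(heckeSub p), (∀ x : JZero p, t • x = heckeOperatorBar p ℓ x) ∧
          π t = ((ℓ : ℕ) : ZMod r) + 1) →
      ∃ n' : ℕ, 0 < n' ∧
        ∀ k : ℕ, 1 ≤ k → ToricLevelInput' r (heckeModel hpF.out) π 𝔄 n' k := by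
  letI := heckeSubCommRing p hpF.out
  intro r hrF hr2 hrp 𝔄 h𝔄 π hev
  exact Fermat.Agent.MAZ.Desc.PTExpInstOdd90.exists_toricLevelInput_odd r (heckeModel hpF.out)
    hpF.out hr2 (ne_of_dvd_pred hpF.out hrp).symm 𝔄 h𝔄 π hev hfinAll
    (Fermat.Agent.MAZ.Hecke.EisTransferFinal85.exists_eis_transfer_pair p r)
    (s19At (not_dvd_of_dvd_pred hrF.out hrp))
    (Fermat.Agent.MAZ.Desc.KUnrInst3.kUnr hpF.out r)

/-- **the marked level inputs of (PT) at `r = 2`** (the argument `hPTtwo` of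
`S15Sup62.s15_of_open`). -/
theorem hPTtwo (hp2 : p ≠ 2) :
    letI := heckeSubCommRing p hpF.out
    ∀ 𝔄 : ValuationSubring Qb, 𝔄.LiesOverPrime p →
    ∀ π : ↥(heckeSub p) →+* ZMod 2,
      (∀ ℓ : Nat.Primes, (ℓ : ℕ) ≠ p →
        ∃ t : ↥(heckeSub p), (∀ x : JZero p, t • x = heckeOperatorBar p ℓ x) ∧
          π t = ((ℓ : ℕ) : ZMod 2) + 1) →
      ∃ n' : ℕ, 0 < n' ∧
        ∀ k : ℕ, 1 ≤ k → ToricLevelInputM' 2 (heckeModel hpF.out) π 𝔄 n' k := by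
  letI := heckeSubCommRing p hpF.out
  intro 𝔄 h𝔄 π hev
  have h2p : ¬ 2 ∣ p := fun h =>
    hp2 ((Nat.prime_dvd_prime_iff_eq Nat.prime_two hpF.out).mp h).symm
  have hS19 : S19At p 2 := s19At h2p
  have hU : KUnr p 2 := Fermat.Agent.MAZ.Desc.KUnrInst3.kUnr hpF.out 2
  have hM := markStmtInf (p := p) hp2
  exact Fermat.Agent.MAZ.Desc.PTExpInstTwo90.exists_toricLevelInputM_two (heckeModel hpF.out)
    hpF.out hp2 𝔄 h𝔄 π hev hfinAll
    (Fermat.Agent.MAZ.Hecke.EisTransferFinal85.exists_eis_transfer_pair p 2)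
    (fun k hk => by
      have hex := hM k hk
      obtain ⟨M₀, hM₀, -⟩ := hex
      exact ⟨M₀, ⟨okMod_Mk hS19 hU, hM₀⟩⟩)

open WeierstrassCurve WeierstrassCurve.Affine in
/-- **S15 from K-FLAT**: the literal statement S15 from the exit of chapter K-FLAT at every prime
`r ∣ p - 1` (points of infinite order suffice). -/
theorem s15_of_kflat (hp' : p ∉ ({2, 3, 5, 7, 13} : Finset ℕ))
    (hKF : ∀ (r : ℕ) [Fact r.Prime], r ∣ p - 1 →
      ∀ (k : ℕ) (y : JZero p), (∀ σ : GQ, σ • ((r ^ k) • y) = (r ^ k) • y) →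
        (∀ n : ℕ, n • ((r ^ k) • y) = 0 → n = 0) → FlatAtR r k (fun σ : GQ => σ • y - y))
    (W : WeierstrassCurve ℤ) (hΔ : W.Δ ≠ 0)
    (Q : ((W.map (Int.castRingHom ℚ))⁄Qb).Point)
    (hQfix : ∀ σ : GQ, σ • Q = Q)
    (hQord : addOrderOf Q = p)
    (h2Δ : (2 : ℤ) ∣ W.Δ) (h2c₄ : ¬ (2 : ℤ) ∣ W.c₄)
    (h2 : ∀ A : ValuationSubring Qb, A.LiesOverPrime 2 → ¬ W.InZeroComponentAt A Q)
    (h3Δ : (3 : ℤ) ∣ W.Δ) (h3c₄ : ¬ (3 : ℤ) ∣ W.c₄)
    (h3 : ∀ A : ValuationSubring Qb, A.LiesOverPrime 3 → ¬ W.InZeroComponentAt A Q)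
    {ℓ : ℕ} (hℓ : ℓ.Prime) (hℓp : ℓ ≠ p) (hℓΔ : (ℓ : ℤ) ∣ W.Δ) (hℓc₄ : ¬ (ℓ : ℤ) ∣ W.c₄)
    (A : ValuationSubring Qb) (hA : A.LiesOverPrime ℓ) :
    ¬ W.InZeroComponentAt A Q := by
  have hp2 : p ≠ 2 := fun h => hp' (by rw [h]; decide)
  exact s15_of_open hp' hKF hPTodd (hPTtwo hp2) (markStmtInf hp2)
    W hΔ Q hQfix hQord h2Δ h2c₄ h2 h3Δ h3c₄ h3 hℓ hℓp hℓΔ hℓc₄ A hA

open WeierstrassCurve WeierstrassCurve.Affine in
/-- **S15**, unconditionally (the statement of `Fermat/Statements/S15.lean` with `[Fact p.Prime]`). -/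
theorem s15 (hp' : p ∉ ({2, 3, 5, 7, 13} : Finset ℕ))
    (W : WeierstrassCurve ℤ) (hΔ : W.Δ ≠ 0)
    (Q : ((W.map (Int.castRingHom ℚ))⁄Qb).Point)
    (hQfix : ∀ σ : GQ, σ • Q = Q)
    (hQord : addOrderOf Q = p)
    (h2Δ : (2 : ℤ) ∣ W.Δ) (h2c₄ : ¬ (2 : ℤ) ∣ W.c₄)
    (h2 : ∀ A : ValuationSubring Qb, A.LiesOverPrime 2 → ¬ W.InZeroComponentAt A Q)
    (h3Δ : (3 : ℤ) ∣ W.Δ) (h3c₄ : ¬ (3 : ℤ) ∣ W.c₄)
    (h3 : ∀ A : ValuationSubring Qb, A.LiesOverPrime 3 → ¬ W.InZeroComponentAt A Q)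
    {ℓ : ℕ} (hℓ : ℓ.Prime) (hℓp : ℓ ≠ p) (hℓΔ : (ℓ : ℤ) ∣ W.Δ) (hℓc₄ : ¬ (ℓ : ℤ) ∣ W.c₄)
    (A : ValuationSubring Qb) (hA : A.LiesOverPrime ℓ) :
    ¬ W.InZeroComponentAt A Q :=
  s15_of_kflat hp'
    (fun r hrF hrp k y hfix _ =>
      Fermat.Agent.MAZ.Flat.KFlatCurve37.flatAtR_kum p r (not_dvd_of_dvd_pred hrF.out hrp) k y
        ((r ^ k) • y) rfl hfix)
    W hΔ Q hQfix hQord h2Δ h2c₄ h2 h3Δ h3c₄ h3 hℓ hℓp hℓΔ hℓc₄ A hA

end Fermat.Agent.MAZ.Spec.S15Plug62
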