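/-
Program MAZ (S15 = Mazur's step three), chapter Spec, helper62: THE TOP ASSEMBLY.

`s15_of_contracts` : the literal statement of S15 from
* the point side contracts of `XSpec62` : `XMod`, `XRed0`, `XRed`, `XHecke`, `CuspPkg`, `DegOne`;
* the global contract `GlobalEis` ("the Eisenstein part of `J₀(p)(ℚ)` is torsion");
* S18 (solved), L1 (helper28, landed) and the existence of places of `ℚbar` over `2` and `3`, taken
  here in literal form as hypotheses to keep the closure of this file small.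

Endgame: `z = (x) - (0)`, `c = (0) - (∞)`; `t z` is torsion and reduces to `0` at `2` and at `3`
(tube classes), hence `t z = 0` (S18 twice); if `Q` met the identity component at `ℓ` then
`t (z + c)` would reduce to `0` at `ℓ`, hence `t c` too; `(p - 1) t c = 0` and `ℓ ∤ p - 1` (L1) give
`t c = 0` (S18), contradicting `t c ≠ 0`.
-/
import Mathlib
import Fermat.Agent.MAZ.Spec.XSpec62

set_option autoImplicit false
set_option linter.unusedSectionVars false
set_option linter.style.haveILetI false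

open AlgebraicCurve ModularCurve
open WeierstrassCurve WeierstrassCurve.Affine

noncomputable section

namespace Fermat.Agent.MAZ.Spec.Top62

open Fermat.Agent.X0 Fermat.Agent.MAZ.Spec.XSpec62

/-- S18 in literal form. -/
def S18Stmt : Prop :=
  ∀ (N : ℕ) [NeZero N] {ℓ : ℕ} [Fact ℓ.Prime], ¬ ℓ ∣ N →
    ∀ A : ValuationSubring Qb, A.LiesOverPrime ℓ → ReductionInputsModL A N →
      ∀ m : ℕ, ¬ ℓ ∣ m → ∀ z : JZero N, m • z = 0 → reductionModL A N z = 0 → z = 0

/-- L1 (the local lemma) in literal form. -/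
def L1Stmt : Prop :=
  ∀ {p ℓ : ℕ}, p.Prime → p ≠ 2 → ℓ.Prime → ℓ ≠ p → ∀ W : WeierstrassCurve ℤ,
    (ℓ : ℤ) ∣ W.Δ → ¬ (ℓ : ℤ) ∣ W.c₄ →
    ∀ Q : ((W.map (Int.castRingHom ℚ))⁄Qb).Point, (∀ σ : GQ, σ • Q = Q) → addOrderOf Q = p →
      ∀ A : ValuationSubring Qb, A.LiesOverPrime ℓ → W.InZeroComponentAt A Q →
        p ∣ ℓ - 1 ∨ p ∣ ℓ + 1

/-- Every prime has a place of `ℚbar` above it. -/
def ExistsOver : Prop := ∀ q : ℕ, q.Prime → ∃ A : ValuationSubring Qb, A.LiesOverPrime q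

/-- A torsion class of `J₀(p)`, `p` an odd prime `≠ 3`, whose reductions at `2` and at `3` vanish is
zero. -/
theorem eq_zero_of_reduction_two_three (hS18 : S18Stmt) {p : ℕ} [NeZero p] (hp : p.Prime)
    (hp2 : p ≠ 2) (hp3 : p ≠ 3) {A2 A3 : ValuationSubring Qb} (hA2 : A2.LiesOverPrime 2)
    (hA3 : A3.LiesOverPrime 3) (h2 : ReductionInputsModL A2 p) (h3 : ReductionInputsModL A3 p)
    (w : JZero p) (k : ℕ) (hk : 0 < k) (hkw : k • w = 0) (hr2 : reductionModL A2 p w = 0)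
    (hr3 : reductionModL A3 p w = 0) : w = 0 := by
  haveI : Fact (Nat.Prime 2) := ⟨Nat.prime_two⟩
  haveI : Fact (Nat.Prime 3) := ⟨Nat.prime_three⟩
  have h2p : ¬ 2 ∣ p := fun h => hp2 ((Nat.prime_dvd_prime_iff_eq Nat.prime_two hp).mp h).symm
  have h3p : ¬ 3 ∣ p := fun h => hp3 ((Nat.prime_dvd_prime_iff_eq Nat.prime_three hp).mp h).symm
  obtain ⟨a, k', hk', rfl⟩ := Nat.exists_eq_two_pow_mul_odd hk.ne'
  have hodd : ¬ 2 ∣ k' := fun h => (Nat.not_even_iff_odd.mpr hk') (even_iff_two_dvd.mpr h)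
  -- the `2`-primary part
  have hw2 : 2 ^ a • w = 0 := by
    refine hS18 p h2p A2 hA2 h2 k' hodd (2 ^ a • w) ?_ ?_
    · rw [smul_smul, mul_comm]; exact hkw
    · rw [map_nsmul, hr2, smul_zero]
  refine hS18 p h3p A3 hA3 h3 (2 ^ a) ?_ w hw2 hr3
  intro h
  have := Nat.Prime.dvd_of_dvd_pow Nat.prime_three h
  omega

/-- **S15 from the contracts.** -/
theorem s15_of_contracts {p : ℕ} [NeZero p] (hp : p.Prime)
    (hp' : p ∉ ({2, 3, 5, 7, 13} : Finset ℕ))
    (hdeg : DegOne p) (cZ : Place Qb (FF p))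
    (hS18 : S18Stmt) (hL1 : L1Stmt) (hex : ExistsOver)
    (hMod : XMod p cZ) (hRed0 : XRed0 p) (hRed : XRed p cZ) (hHecke : XHecke p cZ)
    (hC : CuspPkg hdeg cZ) (hG : GlobalEis hdeg cZ)
    (W : WeierstrassCurve ℤ) (hΔ : W.Δ ≠ 0)
    (Q : ((W.map (Int.castRingHom ℚ))⁄Qb).Point)
    (hQfix : ∀ σ : GQ, σ • Q = Q)
    (hQord : addOrderOf Q = p)
    (h2Δ : (2 : ℤ) ∣ W.Δ) (h2c₄ : ¬ (2 : ℤ) ∣ W.c₄)
    (h2 : ∀ A : ValuationSubring Qb, A.LiesOverPrime 2 → ¬ W.InZeroComponentAt A Q)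
    (h3Δ : (3 : ℤ) ∣ W.Δ) (h3c₄ : ¬ (3 : ℤ) ∣ W.c₄)
    (h3 : ∀ A : ValuationSubring Qb, A.LiesOverPrime 3 → ¬ W.InZeroComponentAt A Q)
    {ℓ : ℕ} (hℓ : ℓ.Prime) (hℓp : ℓ ≠ p) (hℓΔ : (ℓ : ℤ) ∣ W.Δ) (hℓc₄ : ¬ (ℓ : ℤ) ∣ W.c₄)
    (A : ValuationSubring Qb) (hA : A.LiesOverPrime ℓ) :
    ¬ W.InZeroComponentAt A Q := by
  intro hQ0
  have hp2 : p ≠ 2 := fun h => hp' (by rw [h]; decide)
  have hp3 : p ≠ 3 := fun h => hp' (by rw [h]; decide)
  have h2p : (2 : ℕ) ≠ p := fun h => hp2 h.symm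
  have h3p : (3 : ℕ) ≠ p := fun h => hp3 h.symm
  -- the point `x` of `X₀(p)`
  obtain ⟨x, hxfix, hx⟩ := hMod W hΔ Q hQfix hQord
    ⟨2, Nat.prime_two, h2p, by exact_mod_cast h2Δ, by exact_mod_cast h2c₄⟩
  obtain ⟨A2, hA2⟩ := hex 2 Nat.prime_two
  obtain ⟨A3, hA3⟩ := hex 3 Nat.prime_three
  -- the global element `t`
  obtain ⟨t, ht, htc, htors⟩ := hG
  set z : JZero p := pointClass hdeg x cZ with hz
  set c : JZero p := pointClass hdeg cZ (cuspInf p) with hc
  obtain ⟨k, hk, hkz⟩ := htors z (smul_pointClass hdeg hxfix hC.fixedZero)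
  -- reductions at `2` and `3`
  have hr2 : reductionModL A2 p (t z) = 0 := by
    have hx2 : InTubeZero A2 cZ x :=
      (hx 2 Nat.prime_two h2p (by exact_mod_cast h2Δ) (by exact_mod_cast h2c₄) A2 hA2).1
        (h2 A2 hA2)
    have h := hRed0 2 Nat.prime_two h2p A2 hA2
    exact reductionModL_eq_zero_of_mem_supportedClasses h hdeg cZ
      (fun y hy => (hRed 2 Nat.prime_two h2p A2 hA2 h y).1 hy)
      (heckeSub_mem_supportedClasses (heckeStable_inTubeZero hHecke Nat.prime_two h2p hA2) ht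
        (pointClass_mem_supportedClasses hdeg hx2 (Or.inl rfl)))
  have hr3 : reductionModL A3 p (t z) = 0 := by
    have hx3 : InTubeZero A3 cZ x :=
      (hx 3 Nat.prime_three h3p (by exact_mod_cast h3Δ) (by exact_mod_cast h3c₄) A3 hA3).1
        (h3 A3 hA3)
    have h := hRed0 3 Nat.prime_three h3p A3 hA3
    exact reductionModL_eq_zero_of_mem_supportedClasses h hdeg cZ
      (fun y hy => (hRed 3 Nat.prime_three h3p A3 hA3 h y).1 hy)
      (heckeSub_mem_supportedClasses (heckeStable_inTubeZero hHecke Nat.prime_three h3p hA3) ht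
        (pointClass_mem_supportedClasses hdeg hx3 (Or.inl rfl)))
  have htz : t z = 0 :=
    eq_zero_of_reduction_two_three hS18 hp hp2 hp3 hA2 hA3
      (hRed0 2 Nat.prime_two h2p A2 hA2) (hRed0 3 Nat.prime_three h3p A3 hA3) (t z) k hk hkz hr2 hr3
  -- reduction at `ℓ`
  have hℓred := hRed0 ℓ hℓ hℓp A hA
  have hrℓ : reductionModL A p (t (z + c)) = 0 := by
    have hxℓ : InTubeInf A x := (hx ℓ hℓ hℓp hℓΔ hℓc₄ A hA).2 hQ0
    rw [hz, hc, pointClass_add]
    exact reductionModL_eq_zero_of_mem_supportedClasses hℓred hdeg (cuspInf p)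
      (fun y hy => (hRed ℓ hℓ hℓp A hA hℓred y).2 hy)
      (heckeSub_mem_supportedClasses (heckeStable_inTubeInf hHecke hℓ hℓp hA) ht
        (pointClass_mem_supportedClasses hdeg hxℓ (Or.inl rfl)))
  have hrc : reductionModL A p (t c) = 0 := by
    rw [map_add, map_add, htz, map_zero, zero_add] at hrℓ
    exact hrℓ
  -- `ℓ ∤ p - 1`
  have hℓp1 : ¬ ℓ ∣ p - 1 := by
    intro hdvd
    have hp11 : 11 ≤ p := by
      by_contra hlt
      push Not at hlt
      have h5 : p ≠ 5 := fun h => hp' (by rw [h]; decide)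
      have h7 : p ≠ 7 := fun h => hp' (by rw [h]; decide)
      interval_cases p <;> first | omega | (exact absurd hp (by decide))
    have hle : ℓ ≤ p - 1 := Nat.le_of_dvd (by omega) hdvd
    have hℓ2 : 2 ≤ ℓ := hℓ.two_le
    rcases hL1 hp hp2 hℓ hℓp W hℓΔ hℓc₄ Q hQfix hQord A hA hQ0 with h | h
    · have := Nat.le_of_dvd (by omega) h
      omega
    · have h1 := Nat.le_of_dvd (by omega) h
      have hℓeq : ℓ = p - 1 := by omega
      have hodd : Odd p := hp.odd_of_ne_two hp2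
      have heven : 2 ∣ ℓ := by
        obtain ⟨r, hr⟩ := hodd
        exact ⟨r, by omega⟩
      have := (Nat.prime_dvd_prime_iff_eq Nat.prime_two hℓ).mp heven
      omega
  -- `(p - 1) t c = 0`
  have hkc : (p - 1) • t c = 0 := by
    rw [← map_nsmul, hc, hC.order, map_zero]
  haveI : Fact ℓ.Prime := ⟨hℓ⟩
  have hℓp' : ¬ ℓ ∣ p := fun h => hℓp ((Nat.prime_dvd_prime_iff_eq hℓ hp).mp h)
  exact htc (hS18 p hℓp' A hA hℓred (p - 1) hℓp1 (t c) hkc hrc)

end Fermat.Agent.MAZ.Spec.Top62
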